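import Fermat.Agent.DR.Mod2.ModularPole
import Fermat.Agent.JRED.ModularRedExists
import Fermat.Agent.JRED.PlaceMap

set_option autoImplicit false

/-!
# Lifting functions with poles at the poles of `j` (P1)
-/

noncomputable section

open WithZero AlgebraicCurve Fermat.Agent.RR Fermat.Agent.JRED ModularCurve IntermediateField

namespace Fermat.Agent.DR.Mod2

section Abstract

variable {K G k Gb : Type*} [Field K] [Field G] [Algebra K G] [Field k] [Field Gb] [Algebra k Gb]
  {A : ValuationSubring K} {π : A →+* k} {R : RedDatum K G k Gb A π}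

theorem mapDomain_nonneg {r : Place K G → Place k Gb} {C : Divisor K G} (hC : 0 ≤ C)
    (Q : Place k Gb) : 0 ≤ Finsupp.mapDomain r C Q := by
  classical
  rw [Finsupp.mapDomain, Finsupp.sum_apply, Finsupp.sum]
  refine Finset.sum_nonneg fun P' _ => ?_
  rw [Finsupp.single_apply]
  have := hC P'
  simp only [Finsupp.coe_zero, Pi.zero_apply] at this
  split_ifs <;> omega

theorem polesOf_le_mapDomain [HasPrincipalDivisors K G] [HasPrincipalDivisors k Gb]
    {r : Place K G → Place k Gb} (hr : PlaceRed R r) {x : G} {xb : Gb} (hx : R.Red x xb)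
    (hxb : xb ≠ 0) (Q : Place k Gb) :
    polesOf (K := k) xb Q ≤ Finsupp.mapDomain r (polesOf (K := K) x) Q := by
  have h1 := hr x xb hx hxb (divOf x) (fun P => divOf_apply x P) Q
  have h2 : 0 ≤ divOf (K := K) x + polesOf x := by
    intro P
    simp only [Finsupp.coe_zero, Pi.zero_apply, Finsupp.coe_add, Pi.add_apply, divOf_apply,
      polesOf_apply]
    have := le_max_left (-P.ord x) 0
    omega
  have h3 := mapDomain_nonneg (r := r) h2 Q
  rw [Finsupp.mapDomain_add, Finsupp.add_apply, h1] at h3
  have h4 := mapDomain_nonneg (r := r) (polesOf_nonneg (K := K) x) Q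
  rw [polesOf_apply]
  exact max_le (by omega) h4

theorem exists_lift_poles [IsAlgClosed K] [FunctionField K G] [HasPrincipalDivisors k Gb] {g : ℤ}
    (h : DeuringHyp R g) {x : G} {xb : Gb} (hx : R.Red x xb) (hxb : xb ≠ 0)
    (htr : Transcendental K x) : ∃ n₁ : ℕ, ∀ n, n₁ ≤ n →
      ∀ u ∈ riemannRochSpace (n • polesOf (K := k) xb),
        ∃ f ∈ riemannRochSpace (n • polesOf (K := K) x), R.Red f u := by
  refine ⟨h.N₀.toNat, fun n hn u hu => ?_⟩
  have hFF := isFF1_of_functionField (K := K) (F := G)
  have hfin := Fermat.FF.IsFF1.finiteDimensional_adjoin htr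
  have hdeg : 1 ≤ Divisor.degree (polesOf (K := K) x) := by
    rw [RR.degree_polesOf (K := K) htr]
    exact_mod_cast Module.finrank_pos
  have hE : h.N₀ ≤ Divisor.degree (n • polesOf (K := K) x) := by
    rw [map_nsmul, nsmul_eq_mul]
    have h1 : h.N₀ ≤ n := Int.toNat_le.mp hn
    nlinarith
  refine h.exists_lift hE ?_
  rw [mem_riemannRochSpace_iff] at hu ⊢
  intro Q
  refine (hu Q).imp id fun h1 => ?_
  have h2 := polesOf_le_mapDomain h.placeRed hx hxb Q
  have h3 : Finsupp.mapDomain h.r (n • polesOf (K := K) x) Q =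
      n * Finsupp.mapDomain h.r (polesOf (K := K) x) Q := by
    rw [← Finsupp.mapDomain.addMonoidHom_apply, map_nsmul, Finsupp.mapDomain.addMonoidHom_apply,
      Finsupp.smul_apply, nsmul_eq_mul]
  rw [h3]
  rw [Finsupp.smul_apply, nsmul_eq_mul] at h1
  have h4 : (n : ℤ) * polesOf (K := k) xb Q ≤
      n * Finsupp.mapDomain h.r (polesOf (K := K) x) Q :=
    mul_le_mul_of_nonneg_left h2 (by positivity)
  linarith

end Abstract

section Modular

variable {N : ℕ} {A : ValuationSubring (AlgebraicClosure ℚ)} {k : Type} [Field k] {π : A →+* k}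

/-- Deuring's hypotheses for the reduction of `X₀(N)`. -/
theorem deuringHyp_modular (hπ : Function.Surjective π) (hdeg : DegreeInput N k)
    (hgood : GoodReduction N k) : DeuringHyp (hdeg.redDatum hπ)
      (genusFF (AlgebraicClosure ℚ) (modularFunctionFieldBar N)) :=
  haveI := isAlgClosed_of_surjective hπ
  haveI := hdeg.functionField
  haveI := hdeg.functionField'
  { surj_res := hπ
    surj_red := hdeg.redDatum_surjective hπ
    ortho := hdeg.hasOrtho hπ
    curve := curveFacts _ _
    curve' := by rw [show genusFF (AlgebraicClosure ℚ) (modularFunctionFieldBar N) = _ from hgood]; exact curveFacts _ _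
    infinite := IsAlgClosed.instInfinite }

/-- **(P1)**: `L(n (j)_∞)` of `X₀(N)` reduces onto `L(n (j̄)_∞)` for large `n`. -/
theorem exists_lift_modular (hπ : Function.Surjective π) (hdeg : DegreeInput N k)
    (hgood : GoodReduction N k)
    [HasPrincipalDivisors (AlgebraicClosure ℚ) (modularFunctionFieldBar N)]
    [HasPrincipalDivisors k (modularFunctionFieldFullC k N)] :
    ∃ n₁ : ℕ, ∀ n, n₁ ≤ n →
      ∀ u ∈ riemannRochSpace (n • polesOf (K := k) (jRed k N)),
        ∃ f ∈ riemannRochSpace (n • polesOf (K := AlgebraicClosure ℚ) (jBar N)),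
          (hdeg.redDatum hπ).Red f u := by
  have := hdeg.functionField
  refine exists_lift_poles (deuringHyp_modular hπ hdeg hgood) (redL_j π N) ?_
    (transcendental_jBar N)
  intro h0
  have h1 := transcendental_jRed k N
  rw [h0] at h1
  exact h1 isAlgebraic_zero

end Modular

end Fermat.Agent.DR.Mod2
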