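import Fermat.Agent.DR.Mod2.Inf
import Fermat.Agent.DR.Mod2.Lift
import Fermat.Agent.DR.Mod.Residue
import Fermat.Agent.JRED.ESSemi
import Fermat.Agent.Jan.HeckeInputs
import Fermat.Agent.Jan.DegreeWiring

set_option autoImplicit false

/-!
# The modular `DegPair` : the two degeneracy maps `F_M → F_{Mq}` and the reductions `redOne`,
`redTwo`.
-/

noncomputable section

open WithZero AlgebraicCurve Fermat.Agent.RR Fermat.Agent.JRED ModularCurve IntermediateField
  Fermat.Agent.DR.Nodes Fermat.Agent.DR.Mod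

namespace Fermat.Agent.DR.Mod2

section Frob

variable {k : Type*} [Field k] (q M : ℕ) [NeZero q] [ExpChar k q]

/-- coefficientwise Frobenius on `F̄_M`. -/
def coeffFrob (u : modularFunctionFieldFullC k M) : modularFunctionFieldFullC k M :=
  ⟨coeffMap (frobenius k q) (u : LaurentSeries k), ESSemi.coeffMap_mem M _ u.2⟩

/-- `u^q = Φ(σ u)`. -/
theorem pow_eq_PhiFull (u : modularFunctionFieldFullC k M) :
    u ^ q = PhiFull k q M (coeffFrob q M u) :=
  Subtype.ext (Fermat.Agent.JRED.ES.laurent_pow_char q (u : LaurentSeries k))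

theorem isIntegral_PhiFull : (PhiFull k q M).toRingHom.IsIntegral := by
  intro u
  refine ⟨Polynomial.X ^ q - Polynomial.C (coeffFrob q M u),
    Polynomial.monic_X_pow_sub_C _ (NeZero.ne q), ?_⟩
  rw [Polynomial.eval₂_sub, Polynomial.eval₂_pow, Polynomial.eval₂_X, Polynomial.eval₂_C,
    pow_eq_PhiFull]
  exact sub_self _

end Frob

section Modular

variable {A : ValuationSubring (AlgebraicClosure ℚ)} {k : Type} [Field k] {π : A →+* k}
  {M q : ℕ} [NeZero M] [hq : Fact q.Prime] [ExpChar k q]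
  {w : laurentBaseChange (AlgebraicClosure ℚ) (modularFunctionFieldFull (M * q)) ≃ₐ[AlgebraicClosure ℚ]
      laurentBaseChange (AlgebraicClosure ℚ) (modularFunctionFieldFull (M * q))}

theorem functionField_of_setup (S : Setup π w) :
    FunctionField (AlgebraicClosure ℚ) (modularFunctionFieldBar (M * q)) :=
  functionField_of_finite (transcendental_jBar (M * q)) S.deg.1

variable [HasPrincipalDivisors (AlgebraicClosure ℚ) (modularFunctionFieldBar (M * q))]
  [HasPrincipalDivisors (AlgebraicClosure ℚ) (modularFunctionFieldBar M)]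
  [HasPrincipalDivisors k (modularFunctionFieldFullC k M)]

/-- The modular instance of `DegPair`. -/
def modularDegPair (S : Setup π w) (hdeg : DegreeInput M k) (hgood : GoodReduction M k) :
    DegPair (AlgebraicClosure ℚ) (modularFunctionFieldBar (M * q)) (modularFunctionFieldBar M) k
      (modularFunctionFieldFullC k M) A π where
  R := hdeg.redDatum S.surj
  R₁ := redOne S
  R₂ := redTwo S
  α := heckeAlphaBar (AlgebraicClosure ℚ) M q
  β := heckeBetaBar (AlgebraicClosure ℚ) M q
  Φ := PhiFull k q M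
  integral_α := Fermat.Agent.Jan.HeckeInputs.heckeAlphaBarIntegral (AlgebraicClosure ℚ) M q
    Fermat.Agent.Jan.DegreeWiring.jAlg
  integral_β := Fermat.Agent.Jan.HeckeInputs.heckeBetaBarIntegral (AlgebraicClosure ℚ) M q
    Fermat.Agent.Jan.DegreeWiring.jAlg
  integral_Φ := isIntegral_PhiFull q M
  red₁_α h := red1_alpha h
  red₁_β h := red1_beta h
  red₂_α h := red2_alpha S.al h
  red₂_β h := red2_beta S.al h
  q := q
  two_le := S.two_le
  x := jBar M
  xb := jRed k M
  red_x := redL_j π M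
  Φ_xb := PhiFull_jRed q M
  bound := poleBound_modular M q
  lift := exists_lift_modular S.surj hdeg hgood

theorem alpha_jBar : heckeAlphaBar (AlgebraicClosure ℚ) M q (jBar M) =
    Fermat.Agent.JRED.jL (AlgebraicClosure ℚ) (M * q) :=
  alpha_jL (L := AlgebraicClosure ℚ) (M := M) (q := q)

end Modular

section Final

variable {A : ValuationSubring (AlgebraicClosure ℚ)} {k : Type} [Field k] {π : A →+* k}
  {M q : ℕ} [NeZero M] [hq : Fact q.Prime] [ExpChar k q]
  {w : laurentBaseChange (AlgebraicClosure ℚ) (modularFunctionFieldFull (M * q)) ≃ₐ[AlgebraicClosure ℚ]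
      laurentBaseChange (AlgebraicClosure ℚ) (modularFunctionFieldFull (M * q))}
  [FunctionField (AlgebraicClosure ℚ) (modularFunctionFieldBar (M * q))]
  [FunctionField (AlgebraicClosure ℚ) (modularFunctionFieldBar M)]
  [FunctionField k (modularFunctionFieldFullC k M)] [IsAlgClosed k]

variable (S : Setup π w) (hdeg : DegreeInput M k) (hgood : GoodReduction M k)

include hdeg hgood

/-- Lifts of functions regular where `j̄` is, with poles of both images controlled. -/
theorem exists_lift_regAlg {a : modularFunctionFieldFullC k M} (ha : a ∈ regAlg k (jRed k M)) :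
    ∃ (n : ℕ) (f : modularFunctionFieldBar M), (hdeg.redDatum S.surj).Red f a ∧
      heckeAlphaBar (AlgebraicClosure ℚ) M q f ∈ riemannRochSpace
        (n • polesOf (K := AlgebraicClosure ℚ) (Fermat.Agent.JRED.jL (AlgebraicClosure ℚ) (M * q))) ∧
      heckeBetaBar (AlgebraicClosure ℚ) M q f ∈ riemannRochSpace
        ((q * n) • polesOf (K := AlgebraicClosure ℚ)
          (Fermat.Agent.JRED.jL (AlgebraicClosure ℚ) (M * q))) := by
  obtain ⟨n, f, -, h2, h3, h4⟩ := (modularDegPair S hdeg hgood).exists_lift_regAlg ha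
  have h5 : (modularDegPair S hdeg hgood).α (modularDegPair S hdeg hgood).x =
    Fermat.Agent.JRED.jL (AlgebraicClosure ℚ) (M * q) := alpha_jBar
  rw [h5] at h3 h4
  exact ⟨n, f, h2, h3, h4⟩

theorem modular_surj₁ : ∀ a ∈ regAlg k (jRed k M), ∃ (n : ℕ) (b : modularFunctionFieldFullC k M),
    (a, b) ∈ redV S.surj (redOne S) (redTwo S)
      (Fermat.Agent.JRED.jL (AlgebraicClosure ℚ) (M * q)) n := by
  rw [← alpha_jBar]
  exact (modularDegPair S hdeg hgood).surj₁' S.surj

theorem modular_surj₂ : ∀ b ∈ regAlg k (jRed k M ^ q),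
    ∃ (n : ℕ) (a : modularFunctionFieldFullC k M),
    (a, b) ∈ redV S.surj (redOne S) (redTwo S)
      (Fermat.Agent.JRED.jL (AlgebraicClosure ℚ) (M * q)) n := by
  rw [← alpha_jBar]
  exact (modularDegPair S hdeg hgood).surj₂' S.surj

theorem modular_inf₁ : ∃ (N : ℕ) (ϖ : modularFunctionFieldFullC k M), 0 < N ∧
    (ϖ, (0 : modularFunctionFieldFullC k M)) ∈ redV S.surj (redOne S) (redTwo S)
      (Fermat.Agent.JRED.jL (AlgebraicClosure ℚ) (M * q)) N ∧
    (∀ P : Place k (modularFunctionFieldFullC k M), P.ord (jRed k M) < 0 →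
      P.ord ϖ = N * P.ord (jRed k M)) ∧
    ∃ m₀ : ℕ, ∀ m ≥ m₀, ∃ a : ℕ, ∀ w ∈ riemannRochSpace (m • polesOf (K := k) (jRed k M)),
      (w * ϖ ^ a, (0 : modularFunctionFieldFullC k M)) ∈ redV S.surj (redOne S) (redTwo S)
      (Fermat.Agent.JRED.jL (AlgebraicClosure ℚ) (M * q)) (m + a * N) := by
  rw [← alpha_jBar]
  exact (modularDegPair S hdeg hgood).inf₁ S.surj

theorem modular_inf₂ : ∃ (N : ℕ) (ϖ : modularFunctionFieldFullC k M), 0 < N ∧
    ((0 : modularFunctionFieldFullC k M), ϖ) ∈ redV S.surj (redOne S) (redTwo S)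
      (Fermat.Agent.JRED.jL (AlgebraicClosure ℚ) (M * q)) N ∧
    (∀ P : Place k (modularFunctionFieldFullC k M), P.ord (jRed k M ^ q) < 0 →
      P.ord ϖ = N * P.ord (jRed k M ^ q)) ∧
    ∃ m₀ : ℕ, ∀ m ≥ m₀, ∃ a : ℕ, ∀ w ∈ riemannRochSpace (m • polesOf (K := k) (jRed k M ^ q)),
      ((0 : modularFunctionFieldFullC k M), w * ϖ ^ a) ∈ redV S.surj (redOne S) (redTwo S)
      (Fermat.Agent.JRED.jL (AlgebraicClosure ℚ) (M * q)) (m + a * N) := by
  rw [← alpha_jBar]
  exact (modularDegPair S hdeg hgood).inf₂ S.surj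

end Final

end Fermat.Agent.DR.Mod2
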