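import Fermat.Agent.DR.Mod2.PoleBound
import Fermat.Agent.DR.Nodes.Bridge

set_option autoImplicit false

/-!
# The inputs `surj₁ surj₂ inf₁ inf₂` of `exists_nodalDatum`
-/

noncomputable section

open WithZero AlgebraicCurve Fermat.Agent.RR Fermat.Agent.JRED Fermat.Agent.DR.Nodes

namespace Fermat.Agent.DR.Mod2

section Mem

variable {K F : Type*} [Field K] [Field F] [Algebra K F] [HasPrincipalDivisors K F]

theorem PoleBound.right_mem {q : ℕ} {x y : F} (h : PoleBound K q x y) (hq : 2 ≤ q) :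
    y ∈ riemannRochSpace (q • polesOf (K := K) x) := by
  rw [mem_rr_iff]
  intro v
  exact (le_mx v y).trans (h.mx_le hq v)

theorem PoleBound.pow_sub_mem {q : ℕ} {x y : F} (h : PoleBound K q x y) (hq : 2 ≤ q) :
    x ^ q - y ∈ riemannRochSpace (q • polesOf (K := K) x) :=
  Submodule.sub_mem _ (rr_pow_self q x) (h.right_mem hq)

theorem rr_pow {n : ℕ} {x f : F} (hf : f ∈ riemannRochSpace (n • polesOf (K := K) x)) (m : ℕ) :
    f ^ m ∈ riemannRochSpace ((n * m) • polesOf (K := K) x) := by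
  rw [mem_rr_iff] at hf ⊢
  intro v
  rw [map_pow, pow_mul]
  exact pow_le_pow_left' (hf v) m

theorem PoleBound.pow_sub_mem' {q : ℕ} {x y : F} (h : PoleBound K q x y) (hq : 2 ≤ q) :
    y ^ q - x ∈ riemannRochSpace ((q * q) • polesOf (K := K) x) := by
  refine Submodule.sub_mem _ (rr_pow (h.right_mem hq) q) ?_
  have h1 : x ∈ riemannRochSpace (1 • polesOf (K := K) x) := by
    simpa using rr_pow_self (K := K) 1 x
  exact rr_mono (by nlinarith) h1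

/-- the poles of `x ^ (q * q) - x`. -/
theorem ord_pow_sub {x : F} {q : ℕ} (hq : 2 ≤ q) (P : Place K F) (hP : P.ord x < 0) :
    P.ord (x ^ (q * q) - x) = (q * q : ℕ) * P.ord x := by
  have hx0 : x ≠ 0 := by
    rintro rfl
    rw [P.ord_zero] at hP
    exact lt_irrefl _ hP
  have hqq : 2 ≤ q * q := by nlinarith
  have h1 : P.ord (x ^ (q * q)) = (q * q : ℕ) * P.ord x := ord_pow P x (q * q)
  have hq' : (2 : ℤ) ≤ (q * q : ℕ) := by exact_mod_cast hqq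
  rw [sub_eq_add_neg, ord_add_eq_of_lt P (pow_ne_zero _ hx0), h1]
  right
  rw [ord_neg, h1]
  nlinarith

end Mem

section Pair

variable {K F G k Gb : Type*} [Field K] [Field F] [Algebra K F] [Field G] [Algebra K G] [Field k]
  [Field Gb] [Algebra k Gb] [FunctionField K F] [HasPrincipalDivisors K G]
  [HasPrincipalDivisors k Gb] {A : ValuationSubring K} {π : A →+* k}

variable (D : DegPair K F G k Gb A π) (hπ : Function.Surjective π)

/-- Lifting a function which is regular where `j̄` is. -/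
theorem DegPair.exists_lift_regAlg [IsAlgClosed k] [FunctionField k Gb] {a : Gb}
    (ha : a ∈ regAlg k D.xb) : ∃ (n : ℕ) (f : G), f ∈ riemannRochSpace (n • polesOf (K := K) D.x) ∧
      D.R.Red f a ∧ D.α f ∈ riemannRochSpace (n • polesOf (K := K) (D.α D.x)) ∧
      D.β f ∈ riemannRochSpace ((D.q * n) • polesOf (K := K) (D.α D.x)) := by
  obtain ⟨n, hn⟩ := exists_mem_of_mem_regAlg ha
  obtain ⟨n₁, hn₁⟩ := D.lift
  obtain ⟨f, hf, hfu⟩ := hn₁ (max n n₁) (le_max_right _ _) a (rr_mono (le_max_left _ _) hn)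
  exact ⟨_, f, hf, hfu, rr_along D.α D.integral_α hf, D.β_mem hf⟩

theorem DegPair.surj₁' [IsAlgClosed k] [FunctionField k Gb] :
    ∀ a ∈ regAlg k D.xb, ∃ (n : ℕ) (b : Gb), (a, b) ∈ redV hπ D.R₁ D.R₂ (D.α D.x) n := by
  intro a ha
  obtain ⟨n, hn⟩ := exists_mem_of_mem_regAlg ha
  obtain ⟨m, h, u', hm, hr⟩ := D.surj₁ hn
  exact ⟨m, u', mem_redV.mpr ⟨h, hm, hr⟩⟩

theorem DegPair.surj₂' [IsAlgClosed k] [FunctionField k Gb] :
    ∀ b ∈ regAlg k (D.xb ^ D.q), ∃ (n : ℕ) (a : Gb),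
      (a, b) ∈ redV hπ D.R₁ D.R₂ (D.α D.x) n := by
  intro a ha
  obtain ⟨n, hn⟩ := exists_mem_of_mem_regAlg ha
  obtain ⟨m, h, u', hm, hr⟩ := D.surj₂ hn
  exact ⟨m, u', mem_redV.mpr ⟨h, hm, hr⟩⟩

theorem DegPair.red_zero₁ : D.R₁.Red (D.β D.x ^ D.q - D.α D.x) (D.xb ^ (D.q * D.q) - D.xb) := by
  refine RedDatum.sub ?_ (D.red₁_α D.red_x)
  rw [pow_mul]
  refine RedDatum.pow ?_ _
  rw [← D.Φ_xb]
  exact D.red₁_β D.red_x

theorem DegPair.red_zero₂ : D.R₂.Red (D.β D.x ^ D.q - D.α D.x) 0 := by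
  have h1 := RedDatum.sub (RedDatum.pow (D.red₂_β D.red_x) D.q) (D.red₂_α D.red_x)
  rwa [D.Φ_xb, sub_self] at h1

theorem DegPair.red_zero₁' : D.R₁.Red (D.α D.x ^ D.q - D.β D.x) 0 := by
  have h1 := RedDatum.sub (RedDatum.pow (D.red₁_α D.red_x) D.q) (D.red₁_β D.red_x)
  rwa [D.Φ_xb, sub_self] at h1

theorem DegPair.red_zero₂' : D.R₂.Red (D.α D.x ^ D.q - D.β D.x) (D.xb ^ (D.q * D.q) - D.xb) := by
  refine RedDatum.sub ?_ (D.red₂_β D.red_x)
  rw [pow_mul]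
  refine RedDatum.pow ?_ _
  rw [← D.Φ_xb]
  exact D.red₂_α D.red_x

theorem DegPair.inf₁ : ∃ (N : ℕ) (ϖ : Gb), 0 < N ∧
    (ϖ, (0 : Gb)) ∈ redV hπ D.R₁ D.R₂ (D.α D.x) N ∧
    (∀ P : Place k Gb, P.ord D.xb < 0 → P.ord ϖ = N * P.ord D.xb) ∧
    ∃ m₀ : ℕ, ∀ m ≥ m₀, ∃ a : ℕ, ∀ w ∈ riemannRochSpace (m • polesOf (K := k) D.xb),
      (w * ϖ ^ a, (0 : Gb)) ∈ redV hπ D.R₁ D.R₂ (D.α D.x) (m + a * N) := by
  have hq := D.two_le
  obtain ⟨n₁, hn₁⟩ := D.lift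
  refine ⟨D.q * D.q, D.xb ^ (D.q * D.q) - D.xb, by nlinarith,
    mem_redV.mpr ⟨_, D.bound.pow_sub_mem' hq, D.red_zero₁, D.red_zero₂⟩,
    fun P hP => ord_pow_sub hq P hP, n₁, fun m hm => ⟨1, fun w hw => ?_⟩⟩
  obtain ⟨f, hf, hfw⟩ := hn₁ m hm w hw
  refine mem_redV.mpr ⟨D.α f * (D.β D.x ^ D.q - D.α D.x) ^ 1, ?_, ?_, ?_⟩
  · rw [pow_one, one_mul]
    exact rr_mul (rr_along D.α D.integral_α hf) (D.bound.pow_sub_mem' hq)
  · exact D.R₁.mul (D.red₁_α hfw) (RedDatum.pow D.red_zero₁ 1)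
  · have h1 := D.R₂.mul (D.red₂_α hfw) (RedDatum.pow D.red_zero₂ 1)
    rwa [zero_pow one_ne_zero, mul_zero] at h1

theorem DegPair.inf₂ : ∃ (N : ℕ) (ϖ : Gb), 0 < N ∧
    ((0 : Gb), ϖ) ∈ redV hπ D.R₁ D.R₂ (D.α D.x) N ∧
    (∀ P : Place k Gb, P.ord (D.xb ^ D.q) < 0 → P.ord ϖ = N * P.ord (D.xb ^ D.q)) ∧
    ∃ m₀ : ℕ, ∀ m ≥ m₀, ∃ a : ℕ,
      ∀ w ∈ riemannRochSpace (m • polesOf (K := k) (D.xb ^ D.q)),
        ((0 : Gb), w * ϖ ^ a) ∈ redV hπ D.R₁ D.R₂ (D.α D.x) (m + a * N) := by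
  have hq := D.two_le
  have hq0 : D.q ≠ 0 := by omega
  obtain ⟨n₁, hn₁⟩ := D.lift
  refine ⟨D.q, D.xb ^ (D.q * D.q) - D.xb, by omega,
    mem_redV.mpr ⟨_, D.bound.pow_sub_mem hq, D.red_zero₁', D.red_zero₂'⟩, ?_,
    max n₁ 1, fun m hm => ?_⟩
  · intro P hP
    have h1 : P.ord (D.xb ^ D.q) = D.q * P.ord D.xb := ord_pow P _ _
    rw [h1] at hP
    have h2 : P.ord D.xb < 0 := by
      by_contra hcon
      rw [not_lt] at hcon
      have : (0 : ℤ) ≤ D.q * P.ord D.xb := by positivity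
      omega
    rw [ord_pow_sub hq P h2, h1]
    push_cast
    ring
  · have hm1 : n₁ ≤ m := (le_max_left _ _).trans hm
    have hm2 : 1 ≤ m := (le_max_right _ _).trans hm
    obtain ⟨s, hs⟩ : ∃ s, m * (D.q * D.q) = m + s := by
      have : m ≤ m * (D.q * D.q) := Nat.le_mul_of_pos_right m (by positivity)
      exact ⟨_, (Nat.add_sub_cancel' this).symm⟩
    have hs0 : s ≠ 0 := by
      rintro rfl
      have h4 : m * 4 ≤ m * (D.q * D.q) := Nat.mul_le_mul_left m (by nlinarith)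
      omega
    refine ⟨s, fun w hw => ?_⟩
    rw [mem_rr_pow_iff hq0] at hw
    obtain ⟨f, hf, hfw⟩ := hn₁ (D.q * m) (hm1.trans (by nlinarith)) w hw
    refine mem_redV.mpr ⟨D.β f * (D.α D.x ^ D.q - D.β D.x) ^ s, ?_, ?_, ?_⟩
    · have h1 := rr_along D.β D.integral_β hf
      rw [mem_rr_iff] at h1 ⊢
      intro v
      rw [map_mul, map_pow]
      refine le_trans (mul_le_mul_left (h1 v) _) ?_
      rw [mul_comm D.q m, mul_comm s D.q]
      exact D.bound.mx_mul_le hq v hs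
    · have h1 := D.R₁.mul (D.red₁_β hfw) (RedDatum.pow D.red_zero₁' s)
      rwa [zero_pow hs0, mul_zero] at h1
    · exact D.R₂.mul (D.red₂_β hfw) (RedDatum.pow D.red_zero₂' s)

end Pair

end Fermat.Agent.DR.Mod2
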