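import Mathlib
import Fermat.Agent.S28.ModPolySpecProof
import Fermat.Agent.S28.JT

set_option autoImplicit false

/-!
# Shape of the modular polynomial of prime level

`Φ_p(X, Y) = Y^{p+1} + ∑_{k ≤ p} c_k(X) Y^k` with `deg c_k ≤ p` for `k ≥ 1`, `c_p = -X^p + ...`,
`deg c_0 = p + 1`.
-/

noncomputable section

open ModularCurve Polynomial Fermat.Agent.S28

namespace Fermat.Agent.DR.Mod2

section Lead

variable {R : Type*} [CommRing R]

/-- `f = c q^n + higher order terms`. -/
def Lead (f : LaurentSeries R) (n : ℤ) (c : R) : Prop :=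
  (∀ m < n, f.coeff m = 0) ∧ f.coeff n = c

theorem Lead.mono {f : LaurentSeries R} {n n' : ℤ} {c : R} (h : Lead f n c) (hn : n' < n) :
    Lead f n' 0 := ⟨fun m hm => h.1 m (hm.trans hn), h.1 n' hn⟩

theorem Lead.add {f g : LaurentSeries R} {n : ℤ} {c d : R} (hf : Lead f n c) (hg : Lead g n d) :
    Lead (f + g) n (c + d) :=
  ⟨fun m hm => by rw [HahnSeries.coeff_add, hf.1 m hm, hg.1 m hm, add_zero], by
    rw [HahnSeries.coeff_add, hf.2, hg.2]⟩

theorem Lead.neg {f : LaurentSeries R} {n : ℤ} {c : R} (hf : Lead f n c) :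
    Lead (-f) n (-c) :=
  ⟨fun m hm => by rw [HahnSeries.coeff_neg, hf.1 m hm, neg_zero], by
    rw [HahnSeries.coeff_neg, hf.2]⟩

theorem Lead.sub {f g : LaurentSeries R} {n : ℤ} {c d : R} (hf : Lead f n c) (hg : Lead g n d) :
    Lead (f - g) n (c - d) := by
  rw [sub_eq_add_neg, sub_eq_add_neg]
  exact hf.add hg.neg

theorem Lead.zero (n : ℤ) : Lead (0 : LaurentSeries R) n 0 :=
  ⟨fun _ _ => HahnSeries.coeff_zero, HahnSeries.coeff_zero⟩

theorem Lead.sum {ι : Type*} (s : Finset ι) {f : ι → LaurentSeries R} {n : ℤ} {c : ι → R}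
    (h : ∀ i ∈ s, Lead (f i) n (c i)) : Lead (∑ i ∈ s, f i) n (∑ i ∈ s, c i) := by
  classical
  induction s using Finset.induction_on with
  | empty => simpa using Lead.zero n
  | insert a s ha ih =>
    rw [Finset.sum_insert ha, Finset.sum_insert ha]
    exact (h _ (Finset.mem_insert_self _ _)).add
      (ih fun i hi => h i (Finset.mem_insert_of_mem hi))

theorem Lead.mul {f g : LaurentSeries R} {n m : ℤ} {c d : R} (hf : Lead f n c)
    (hg : Lead g m d) : Lead (f * g) (n + m) (c * d) := by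
  constructor
  · intro k hk
    rw [HahnSeries.coeff_mul]
    refine Finset.sum_eq_zero fun ij hij => ?_
    rw [Finset.mem_antidiagonal] at hij
    obtain ⟨-, -, h3⟩ := hij
    rcases lt_or_ge ij.1 n with h | h
    · rw [hf.1 _ h, zero_mul]
    · rw [hg.1 _ (by omega), mul_zero]
  · rw [HahnSeries.coeff_mul]
    by_cases h0 : f.coeff n = 0 ∨ g.coeff m = 0
    · have h1 : c * d = 0 := by
        rw [← hf.2, ← hg.2]
        rcases h0 with h0 | h0
        · rw [h0, zero_mul]
        · rw [h0, mul_zero]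
      rw [h1]
      refine Finset.sum_eq_zero fun ij hij => ?_
      rw [Finset.mem_antidiagonal] at hij
      obtain ⟨-, -, h3⟩ := hij
      rcases lt_trichotomy ij.1 n with h | h | h
      · rw [hf.1 _ h, zero_mul]
      · have h2 : ij.2 = m := by omega
        rw [h, h2]
        rcases h0 with h0 | h0
        · rw [h0, zero_mul]
        · rw [h0, mul_zero]
      · rw [hg.1 _ (by omega), mul_zero]
    · rw [not_or] at h0
      rw [Finset.sum_eq_single (n, m)]
      · rw [hf.2, hg.2]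
      · intro ij hij hne
        rw [Finset.mem_antidiagonal] at hij
        obtain ⟨-, -, h3⟩ := hij
        rcases lt_trichotomy ij.1 n with h | h | h
        · rw [hf.1 _ h, zero_mul]
        · exact absurd (Prod.ext h (by omega)) hne
        · rw [hg.1 _ (by omega), mul_zero]
      · intro h
        exact absurd (Finset.mem_antidiagonal.mpr
          ⟨HahnSeries.mem_support _ _ |>.mpr h0.1, HahnSeries.mem_support _ _ |>.mpr h0.2, rfl⟩) h

theorem Lead.one : Lead (1 : LaurentSeries R) 0 1 :=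
  ⟨fun m hm => by
    rw [HahnSeries.coeff_one, if_neg]
    exact hm.ne, by rw [HahnSeries.coeff_one, if_pos rfl]⟩

theorem Lead.pow {f : LaurentSeries R} {n : ℤ} {c : R} (hf : Lead f n c) (k : ℕ) :
    Lead (f ^ k) (k * n) (c ^ k) := by
  induction k with
  | zero => simpa using Lead.one
  | succ k ih =>
    rw [pow_succ, pow_succ]
    have := ih.mul hf
    have e : (k : ℤ) * n + n = ((k + 1 : ℕ) : ℤ) * n := by push_cast; ring
    rwa [e] at this

theorem Lead.smul {f : LaurentSeries R} {n : ℤ} {c : R} (hf : Lead f n c) (r : ℤ) :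
    Lead ((r : LaurentSeries R) * f) n (r * c) := by
  have h1 : Lead (r : LaurentSeries R) 0 (r : R) := by
    have h2 : ((r : LaurentSeries R)) = HahnSeries.C (r : R) := by rw [map_intCast]
    rw [h2]
    refine ⟨fun m hm => ?_, ?_⟩
    · rw [HahnSeries.C_apply, HahnSeries.coeff_single_of_ne hm.ne]
    · rw [HahnSeries.C_apply, HahnSeries.coeff_single_same]
  have := h1.mul hf
  rwa [zero_add] at this

theorem lead_qExpand {f : LaurentSeries R} {n : ℤ} {c : R} (hf : Lead f n c) (m : ℕ) [hm : NeZero m] :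
    Lead (qExpand R m f) (m * n) c := by
  constructor
  · intro k hk
    by_cases hd : (m : ℤ) ∣ k
    · obtain ⟨l, rfl⟩ := hd
      rw [qExpand_coeff_mul]
      apply hf.1
      have hm0 : (0 : ℤ) < m := by exact_mod_cast Nat.pos_of_ne_zero hm.out
      exact lt_of_mul_lt_mul_left hk hm0.le
    · rw [qExpand_coeff_of_not_dvd _ _ hd]
  · rw [qExpand_coeff_mul]
    exact hf.2

theorem lead_jqModC : Lead (jqModC R) (-1) 1 :=
  ⟨fun _ hm => coeff_jqModC_of_lt R hm, coeff_jqModC_neg_one R⟩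

theorem lead_twist {f : LaurentSeries R} {n : ℤ} {c : R} (hf : Lead f n c) (u : Rˣ) :
    Lead (twist u f) n (((u ^ n : Rˣ) : R) * c) :=
  ⟨fun m hm => by rw [twist_coeff, hf.1 m hm, mul_zero], by rw [twist_coeff, hf.2]⟩

/-- `c(J)` for `J = q^{-p} + ...` -/
theorem lead_evJ {J : LaurentSeries R} {p : ℕ} (hp : 0 < p) (hJ : Lead J (-(p : ℤ)) 1) (c : ℤ[X])
    {D : ℕ} (hD : c.natDegree ≤ D) : Lead (evJ R J c) (-(p * D : ℤ)) ((c.coeff D : ℤ) : R) := by
  have h1 : evJ R J c = ∑ i ∈ Finset.range (D + 1), ((c.coeff i : ℤ) : LaurentSeries R) * J ^ i := by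
    rw [evJ, coe_eval₂RingHom, eval₂_eq_sum_range' _ (Nat.lt_succ_of_le hD)]
    rfl
  have h2 : ((c.coeff D : ℤ) : R) =
      ∑ i ∈ Finset.range (D + 1), if i = D then ((c.coeff D : ℤ) : R) else 0 := by
    rw [Finset.sum_ite_eq' , if_pos (Finset.self_mem_range_succ D)]
  rw [h1, h2]
  refine Lead.sum _ fun i hi => ?_
  rw [Finset.mem_range] at hi
  have h3 := (hJ.pow i).smul (c.coeff i)
  rw [one_pow, mul_one] at h3
  split_ifs with h
  · subst h
    have e : (i : ℤ) * -(p : ℤ) = -(p * i : ℤ) := by ring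
    rwa [e] at h3
  · refine h3.mono ?_
    have hp' : (0 : ℤ) < p := by exact_mod_cast hp
    have hiD : (i : ℤ) < D := by exact_mod_cast (by omega : i < D)
    nlinarith

theorem natDegree_le_of_lead [CharZero R] {J : LaurentSeries R} {p : ℕ} (hp : 0 < p)
    (hJ : Lead J (-(p : ℤ)) 1) (c : ℤ[X]) {D : ℕ}
    (h : ∀ m : ℤ, m ≤ -(p * (D + 1) : ℤ) → (evJ R J c).coeff m = 0) : c.natDegree ≤ D := by
  by_contra hcon
  rw [not_le] at hcon
  have h1 := (lead_evJ hp hJ c le_rfl).2
  rw [h] at h1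
  · have h2 : c.coeff c.natDegree = 0 := by exact_mod_cast h1.symm
    rw [coeff_natDegree, leadingCoeff_eq_zero] at h2
    rw [h2, natDegree_zero] at hcon
    omega
  · have hp' : (0 : ℤ) < p := by exact_mod_cast hp
    have h3 : (D : ℤ) + 1 ≤ c.natDegree := by exact_mod_cast hcon
    nlinarith

end Lead

section Wt

variable {R : Type*} [CommRing R]

/-- the coefficient of `X^k` in `P` has order `≥ w + k` -/
def Wt (P : (LaurentSeries R)[X]) (w : ℤ) : Prop :=
  ∀ (k : ℕ) (m : ℤ), m < w + k → (P.coeff k).coeff m = 0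

theorem Wt.mul {P Q : (LaurentSeries R)[X]} {w z : ℤ} (hP : Wt P w) (hQ : Wt Q z) :
    Wt (P * Q) (w + z) := by
  intro k m hm
  rw [coeff_mul, HahnSeries.coeff_sum]
  refine Finset.sum_eq_zero fun ij hij => ?_
  rw [Finset.HasAntidiagonal.mem_antidiagonal] at hij
  have h1 : Lead (P.coeff ij.1) (w + ij.1) _ := ⟨fun m hm => hP _ m hm, rfl⟩
  have h2 : Lead (Q.coeff ij.2) (z + ij.2) _ := ⟨fun m hm => hQ _ m hm, rfl⟩
  refine (h1.mul h2).1 m ?_
  have : (ij.1 : ℤ) + ij.2 = k := by exact_mod_cast hij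
  linarith

theorem Wt.prod {ι : Type*} (s : Finset ι) {P : ι → (LaurentSeries R)[X]} {w : ι → ℤ}
    (h : ∀ i ∈ s, Wt (P i) (w i)) : Wt (∏ i ∈ s, P i) (∑ i ∈ s, w i) := by
  classical
  induction s using Finset.induction_on with
  | empty =>
    intro k m hm
    rw [Finset.prod_empty, coeff_one]
    rw [Finset.sum_empty, zero_add] at hm
    split_ifs with h
    · subst h
      rw [HahnSeries.coeff_one, if_neg]
      exact_mod_cast hm.ne
    · exact HahnSeries.coeff_zero
  | insert a s ha ih =>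
    rw [Finset.prod_insert ha, Finset.sum_insert ha]
    exact (h _ (Finset.mem_insert_self _ _)).mul
      (ih fun i hi => h i (Finset.mem_insert_of_mem hi))

theorem wt_X_sub_C {t : LaurentSeries R} {c : R} {n : ℤ} (hn : n ≤ 0) (ht : Lead t (n - 1) c) :
    Wt (X - C t) (n - 1) := by
  intro k m hm
  rw [coeff_sub, coeff_X, coeff_C]
  rcases k with _ | _ | k
  · simp only [one_ne_zero, if_false, if_true, zero_sub, HahnSeries.coeff_neg, neg_eq_zero]
    exact ht.1 m (by simpa using hm)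
  · simp only [zero_add, if_true, one_ne_zero, if_false, sub_zero]
    rw [HahnSeries.coeff_one, if_neg]
    push_cast at hm
    intro h
    omega
  · simp

theorem prod_coeff_zero_lead {ι : Type*} (s : Finset ι) {t : ι → LaurentSeries R} {c : ι → R}
    (h : ∀ i ∈ s, Lead (t i) (-1) (c i)) :
    Lead ((∏ i ∈ s, (X - C (t i))).coeff 0) (-(s.card : ℤ)) (∏ i ∈ s, -c i) := by
  classical
  induction s using Finset.induction_on with
  | empty => simpa using Lead.one
  | insert a s ha ih =>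
    rw [Finset.prod_insert ha, Finset.prod_insert ha, Finset.card_insert_of_notMem ha, mul_coeff_zero]
    have h1 : Lead ((X - C (t a)).coeff 0) (-1) (-c a) := by
      rw [coeff_sub, coeff_X_zero, coeff_C_zero, zero_sub]
      exact (h a (Finset.mem_insert_self _ _)).neg
    have h2 := h1.mul (ih fun i hi => h i (Finset.mem_insert_of_mem hi))
    have e : (-1 : ℤ) + -(s.card : ℤ) = -((s.card + 1 : ℕ) : ℤ) := by push_cast; ring
    rwa [e] at h2

end Wt

section Shape

/-- The shape of the modular polynomial (degrees of the coefficients). -/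
structure ModPolyShape (p : ℕ) (Φ : ℤ[X][X]) : Prop where
  monic : Φ.Monic
  natDegree_eq : Φ.natDegree = p + 1
  natDegree_coeff : ∀ k, 1 ≤ k → k ≤ p → (Φ.coeff k).natDegree ≤ p
  coeff_coeff : (Φ.coeff p).coeff p = -1
  natDegree_zero : (Φ.coeff 0).natDegree ≤ p + 1
  coeff_zero : (Φ.coeff 0).coeff (p + 1) ≠ 0

theorem modPolyShape {p : ℕ} [hp : Fact p.Prime] {Φ : ℤ[X][X]} (h : ModPolySpec p Φ) :
    ModPolyShape p Φ := by
  have hp0 := hp.out.pos
  have hp2 := hp.out.two_le
  have hpZ : (2 : ℤ) ≤ p := by exact_mod_cast hp2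
  -- work over `ℂ`
  obtain ⟨ζ, hζ⟩ : ∃ ζ : ℂˣ, IsPrimitiveRoot ζ p := by
    have h0 := Complex.isPrimitiveRoot_exp p hp0.ne'
    refine ⟨(h0.isUnit hp0.ne').unit, ?_⟩
    rw [← IsPrimitiveRoot.coe_units_iff]
    exact h0
  have h1 := h.splits ℂ ζ hζ
  set J : LaurentSeries ℂ := qExpand ℂ p (jqModC ℂ) with hJdef
  have hJ : Lead J (-(p : ℤ)) 1 := by
    have := lead_qExpand (R := ℂ) lead_jqModC p
    rwa [mul_neg_one] at this
  set s : LaurentSeries ℂ := qExpand ℂ (p * p) (jqModC ℂ) with hsdef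
  have hs : Lead s (-(p * p : ℤ)) 1 := by
    have := lead_qExpand (R := ℂ) lead_jqModC (p * p)
    rw [mul_neg_one] at this
    exact_mod_cast this
  set P : (LaurentSeries ℂ)[X] := ∏ i ∈ Finset.range p, (X - C (twist (ζ ^ i) (jqModC ℂ))) with hP
  have ht : ∀ i ∈ Finset.range p, Lead (twist (ζ ^ i) (jqModC ℂ)) (-1)
      (((ζ ^ i)⁻¹ : ℂˣ) : ℂ) := by
    intro i _
    have := lead_twist (R := ℂ) lead_jqModC (ζ ^ i)
    rwa [mul_one, zpow_neg_one] at this
  have hPw : Wt P (-(p : ℤ)) := by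
    have := Wt.prod (Finset.range p) (P := fun i => X - C (twist (ζ ^ i) (jqModC ℂ)))
      (w := fun _ => 0 - 1) (fun i hi => wt_X_sub_C le_rfl (by simpa using ht i hi))
    simpa using this
  have hPm : P.Monic := monic_prod_of_monic _ _ fun _ _ => monic_X_sub_C _
  have hPd : P.natDegree = p := by
    rw [hP, natDegree_prod_of_monic _ _ fun _ _ => monic_X_sub_C _]
    simp
  have hPp : P.coeff p = 1 := by
    have := hPm.coeff_natDegree
    rwa [hPd] at this
  -- coefficients
  have hcoeff : ∀ k, evJ ℂ J (Φ.coeff (k + 1)) = P.coeff k - s * P.coeff (k + 1) := by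
    intro k
    have h2 := congrArg (fun f => f.coeff (k + 1)) h1
    simp only [PhiR, coeff_map] at h2
    rw [evJ, h2, sub_mul, coeff_sub, coeff_X_mul, coeff_C_mul]
  have hcoeff0 : evJ ℂ J (Φ.coeff 0) = - (s * P.coeff 0) := by
    have h2 := congrArg (fun f => f.coeff 0) h1
    simp only [PhiR, coeff_map] at h2
    rw [evJ, h2, sub_mul, coeff_sub, mul_coeff_zero, coeff_X_zero, zero_mul, coeff_C_mul, zero_sub]
  have hPk : ∀ k : ℕ, Lead (P.coeff k) (-(p : ℤ) + k) ((P.coeff k).coeff (-(p : ℤ) + k)) :=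
    fun k => ⟨fun m hm => hPw k m hm, rfl⟩
  have hbound : ∀ k, k + 1 ≤ p → ∀ m : ℤ, m < -(p * p + p : ℤ) + (k + 1) →
      (evJ ℂ J (Φ.coeff (k + 1))).coeff m = 0 := by
    intro k hk m hm
    rw [hcoeff, HahnSeries.coeff_sub, (hPk k).1 m (by nlinarith),
      (hs.mul (hPk (k + 1))).1 m (by push_cast; linarith), sub_zero]
  refine ⟨h.monic, h.natDegree_eq, ?_, ?_, ?_, ?_⟩
  · intro k hk1 hkp
    obtain ⟨k, rfl⟩ : ∃ l, k = l + 1 := ⟨k - 1, by omega⟩
    refine natDegree_le_of_lead hp0 hJ _ fun m hm => hbound k hkp m ?_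
    have : (0 : ℤ) ≤ k := by positivity
    nlinarith
  · obtain ⟨r, hr⟩ : ∃ r, p = r + 1 := ⟨p - 1, by omega⟩
    have hd : (Φ.coeff p).natDegree ≤ p := by
      rw [hr]
      refine natDegree_le_of_lead hp0 hJ _ fun m hm => hbound r hr.ge m ?_
      have : (0 : ℤ) ≤ r := by positivity
      have h3 : (p : ℤ) = r + 1 := by exact_mod_cast hr
      rw [h3] at hm ⊢
      push_cast at hm
      nlinarith
    have h2 := (lead_evJ hp0 hJ _ hd).2
    have h3 : evJ ℂ J (Φ.coeff p) = P.coeff r - s := by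
      have h4 := hcoeff r
      rw [← hr, hPp, mul_one] at h4
      exact h4
    rw [h3, HahnSeries.coeff_sub, hs.2, (hPk r).1, zero_sub] at h2
    · exact_mod_cast h2.symm
    · have : (0 : ℤ) ≤ r := by positivity
      nlinarith
  · refine natDegree_le_of_lead hp0 hJ _ fun m hm => ?_
    rw [hcoeff0, HahnSeries.coeff_neg, (hs.mul (hPk 0)).1 m, neg_zero]
    push_cast at hm ⊢
    nlinarith
  · intro h0
    have hd : (Φ.coeff 0).natDegree ≤ p + 1 := by
      refine natDegree_le_of_lead hp0 hJ _ fun m hm => ?_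
      rw [hcoeff0, HahnSeries.coeff_neg, (hs.mul (hPk 0)).1 m, neg_zero]
      push_cast at hm ⊢
      nlinarith
    have h2 := (lead_evJ hp0 hJ _ hd).2
    have h3 := (hs.mul (prod_coeff_zero_lead (Finset.range p) ht)).2
    rw [h0, hcoeff0, HahnSeries.coeff_neg] at h2
    rw [Finset.card_range] at h3
    have e : (-(p * ((p + 1 : ℕ) : ℤ)) : ℤ) = -(p * p : ℤ) + -(p : ℤ) := by push_cast; ring
    rw [e, h3] at h2
    rw [one_mul, Int.cast_zero, neg_eq_zero, Finset.prod_eq_zero_iff] at h2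
    obtain ⟨i, -, hi⟩ := h2
    rw [neg_eq_zero] at hi
    exact Units.ne_zero _ hi

end Shape

end Fermat.Agent.DR.Mod2
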