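import Fermat.Agent.DR.Mod2.PoleBound
import Fermat.Agent.DR.Mod2.ModPolyShape

set_option autoImplicit false

/-!
# Pole bounds for `j`, `j(q^p)` from the shape of the modular polynomial
-/

noncomputable section

open WithZero AlgebraicCurve Fermat.Agent.RR Polynomial Fermat.Agent.S28

namespace Fermat.Agent.DR.Mod2

section Eval

variable {K F : Type*} [Field K] [Field F] [Algebra K F] (v : Place K F)

theorem adicValuation_intCast_le_one (n : ℤ) : v.adicValuation (n : F) ≤ 1 := by
  have h1 : (n : F) = algebraMap K F (n : K) := by rw [map_intCast]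
  rw [h1]
  exact v.adicValuation_algebraMap_le_one _

theorem adicValuation_intCast_eq_one [CharZero K] {n : ℤ} (hn : n ≠ 0) :
    v.adicValuation (n : F) = 1 := by
  refine le_antisymm (adicValuation_intCast_le_one v n) ?_
  have hn0 : (n : K) ≠ 0 := by exact_mod_cast hn
  have h1 : (n : F) = algebraMap K F (n : K) := by rw [map_intCast]
  have h2 := v.adicValuation_algebraMap_le_one ((n : K)⁻¹)
  have h3 : v.adicValuation (n : F) * v.adicValuation (algebraMap K F ((n : K)⁻¹)) = 1 := by
    rw [← map_mul, h1, ← map_mul, mul_inv_cancel₀ hn0, map_one, map_one]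
  calc (1 : ℤᵐ⁰) = v.adicValuation (n : F) * v.adicValuation (algebraMap K F ((n : K)⁻¹)) := h3.symm
    _ ≤ v.adicValuation (n : F) * 1 := mul_le_mul_right h2 _
    _ = _ := mul_one _

theorem exp_pow' (a : ℤ) (n : ℕ) : (exp a : ℤᵐ⁰) ^ n = exp (n * a) := by
  rw [← exp_nsmul, nsmul_eq_mul]

/-- value of a polynomial -/
theorem adicValuation_eval_le {x : F} {a : ℤ} (ha : 0 ≤ a) (hx : v.adicValuation x ≤ exp a)
    (c : ℤ[X]) {D : ℕ} (hD : c.natDegree ≤ D) :
    v.adicValuation (c.eval₂ (Int.castRingHom F) x) ≤ exp (D * a) := by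
  rw [eval₂_eq_sum_range' _ (Nat.lt_succ_of_le hD)]
  refine Valuation.map_sum_le _ fun i hi => ?_
  rw [Finset.mem_range] at hi
  rw [map_mul, map_pow]
  calc v.adicValuation (Int.castRingHom F (c.coeff i)) * v.adicValuation x ^ i
      ≤ 1 * (exp a) ^ i := mul_le_mul' (adicValuation_intCast_le_one v _) (pow_le_pow_left' hx i)
    _ = exp (i * a) := by rw [one_mul, exp_pow']
    _ ≤ exp (D * a) := by
        rw [exp_le_exp]
        have : (i : ℤ) ≤ D := by exact_mod_cast (by omega : i ≤ D)
        nlinarith

theorem adicValuation_eval_eq [CharZero K] {x : F} {a : ℤ} (ha : 0 < a)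
    (hx : v.adicValuation x = exp a) (c : ℤ[X]) {D : ℕ} (hD : c.natDegree ≤ D)
    (hc : c.coeff D ≠ 0) : v.adicValuation (c.eval₂ (Int.castRingHom F) x) = exp (D * a) := by
  have hD' : c.natDegree = D := le_antisymm hD (le_natDegree_of_ne_zero hc)
  rcases Nat.eq_zero_or_pos D with h0 | h0
  · subst h0
    rw [eq_C_of_natDegree_eq_zero hD', eval₂_C, Nat.cast_zero, zero_mul, exp_zero]
    exact adicValuation_intCast_eq_one v hc
  have h1 : c = (c - monomial D (c.coeff D)) + monomial D (c.coeff D) := by ring
  have h2 : (c - monomial D (c.coeff D)).natDegree ≤ D - 1 := by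
    rw [natDegree_le_iff_coeff_eq_zero]
    intro n hn
    rw [coeff_sub, coeff_monomial]
    split_ifs with h
    · rw [h, sub_self]
    · rw [coeff_eq_zero_of_natDegree_lt (by omega), sub_zero]
  have h3 := adicValuation_eval_le v ha.le hx.le _ h2
  have h4 : v.adicValuation ((monomial D (c.coeff D)).eval₂ (Int.castRingHom F) x) =
      exp (D * a) := by
    rw [eval₂_monomial, map_mul, map_pow, hx, exp_pow']
    have : v.adicValuation (Int.castRingHom F (c.coeff D)) = 1 :=
      adicValuation_intCast_eq_one v hc
    rw [this, one_mul]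
  rw [h1, eval₂_add, Valuation.map_add_eq_of_lt_right, h4]
  rw [h4]
  refine lt_of_le_of_lt h3 ?_
  rw [exp_lt_exp]
  have h5 : ((D - 1 : ℕ) : ℤ) = D - 1 := by
    have := h0
    push_cast [Nat.cast_sub (Nat.one_le_iff_ne_zero.mpr h0.ne')]
    ring
  rw [h5]
  nlinarith

end Eval

section Main

variable {K F : Type*} [Field K] [CharZero K] [Field F] [Algebra K F] {p : ℕ} {Φ : ℤ[X][X]}
  {x y : F}

theorem PhiR_eval (h : ModPolyShape p Φ) (x y : F) : (PhiR Φ x).eval y =
    ∑ k ∈ Finset.range (p + 1), (Φ.coeff k).eval₂ (Int.castRingHom F) x * y ^ k + y ^ (p + 1) := by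
  rw [PhiR, eval_map, eval₂_eq_sum_range, h.natDegree_eq, Finset.sum_range_succ,
    ← h.natDegree_eq, h.monic.coeff_natDegree, map_one, one_mul]
  rfl

/-- **The pole bounds.** -/
theorem poleBound_of_shape (hp : 2 ≤ p) (h : ModPolyShape p Φ) (hrel : (PhiR Φ x).eval y = 0) :
    PoleBound K p x y := by
  have hpZ : (2 : ℤ) ≤ p := by exact_mod_cast hp
  rw [PhiR_eval h] at hrel
  have hdeg : ∀ k, k ≤ p → (Φ.coeff k).natDegree ≤ p + 1 := by
    intro k hk
    rcases Nat.eq_zero_or_pos k with rfl | hk0
    · exact h.natDegree_zero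
    · exact (h.natDegree_coeff k hk0 hk).trans (Nat.le_succ p)
  constructor
  · intro v hv
    by_contra hcon
    rw [not_le] at hcon
    have hy0 : y ≠ 0 := by
      rintro rfl
      rw [map_zero] at hcon
      exact absurd hcon (by simp)
    have hY := v.adicValuation_eq_exp_neg_ord hy0
    set b := -v.ord y with hb
    rw [hY, ← exp_zero, exp_lt_exp] at hcon
    have h1 : y ^ (p + 1) =
        -∑ k ∈ Finset.range (p + 1), (Φ.coeff k).eval₂ (Int.castRingHom F) x * y ^ k := by
      linear_combination hrel
    have h2 : v.adicValuation (y ^ (p + 1)) ≤ exp (p * b) := by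
      rw [h1, Valuation.map_neg]
      refine Valuation.map_sum_le _ fun k hk => ?_
      rw [Finset.mem_range] at hk
      have h3 := adicValuation_eval_le v le_rfl (by rwa [exp_zero]) (Φ.coeff k)
        (hdeg k (by omega))
      rw [mul_zero, exp_zero] at h3
      rw [map_mul, map_pow, hY, exp_pow']
      refine (mul_le_of_le_one_left' h3).trans ?_
      rw [exp_le_exp]
      have : (k : ℤ) ≤ p := by exact_mod_cast (by omega : k ≤ p)
      nlinarith
    rw [map_pow, hY, exp_pow', exp_le_exp] at h2
    push_cast at h2
    nlinarith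
  · intro v hv
    have hx0 : x ≠ 0 := by
      rintro rfl
      rw [map_zero] at hv
      exact absurd hv (by simp)
    have hX := v.adicValuation_eq_exp_neg_ord hx0
    set a := -v.ord x with ha
    have ha0 : 0 < a := by rwa [hX, ← exp_zero, exp_lt_exp] at hv
    -- notation for the coefficients
    obtain ⟨c, hc⟩ : ∃ c : ℕ → F, ∀ k, c k = (Φ.coeff k).eval₂ (Int.castRingHom F) x :=
      ⟨_, fun _ => rfl⟩
    simp only [← hc] at hrel
    have hc0 : v.adicValuation (c 0) = exp ((p + 1) * a) := by
      rw [hc, adicValuation_eval_eq v ha0 hX _ h.natDegree_zero h.coeff_zero]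
      push_cast
      rfl
    have hck : ∀ k, 1 ≤ k → k ≤ p → v.adicValuation (c k) ≤ exp (p * a) := by
      intro k hk1 hk2
      rw [hc]
      exact adicValuation_eval_le v ha0.le hX.le _ (h.natDegree_coeff k hk1 hk2)
    have hcp : v.adicValuation (c p + x ^ p) ≤ exp ((p - 1) * a) := by
      have h1 : c p + x ^ p = (Φ.coeff p + X ^ p).eval₂ (Int.castRingHom F) x := by
        rw [eval₂_add, eval₂_pow, eval₂_X, hc]
      have h2 : (Φ.coeff p + X ^ p).natDegree ≤ p - 1 := by
        rw [natDegree_le_iff_coeff_eq_zero]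
        intro n hn
        rw [coeff_add, coeff_X_pow]
        split_ifs with hnp
        · rw [hnp, h.coeff_coeff, neg_add_cancel]
        · rw [coeff_eq_zero_of_natDegree_lt, add_zero]
          exact lt_of_le_of_lt (h.natDegree_coeff p (by omega) le_rfl) (by omega)
      rw [h1]
      have h3 := adicValuation_eval_le v ha0.le hX.le _ h2
      have h4 : ((p - 1 : ℕ) : ℤ) = p - 1 := by
        rw [Nat.cast_sub (by omega), Nat.cast_one]
      rwa [h4] at h3
    -- `y ≠ 0`
    have hy0 : y ≠ 0 := by
      rintro rfl
      have h1 : ∑ k ∈ Finset.range (p + 1), c k * (0 : F) ^ k = c 0 := by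
        rw [Finset.sum_eq_single_of_mem 0 (by simp)]
        · rw [pow_zero, mul_one]
        · intro k _ hk
          rw [zero_pow hk, mul_zero]
      rw [h1, zero_pow (by omega), add_zero] at hrel
      rw [hrel, map_zero] at hc0
      exact absurd hc0.symm exp_ne_zero
    have hY := v.adicValuation_eq_exp_neg_ord hy0
    set b := -v.ord y with hb
    -- splitting of the sum
    have hsplit : ∑ k ∈ Finset.range (p + 1), c k * y ^ k =
        c 0 + ∑ k ∈ Finset.range (p - 1), c (k + 1) * y ^ (k + 1) + c p * y ^ p := by
      obtain ⟨r, rfl⟩ : ∃ r, p = r + 1 := ⟨p - 1, by omega⟩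
      rw [Finset.sum_range_succ, Finset.sum_range_succ', pow_zero, mul_one, Nat.add_sub_cancel]
      ring
    obtain ⟨B, hB⟩ : ∃ B, B = ∑ k ∈ Finset.range (p - 1), c (k + 1) * y ^ (k + 1) := ⟨_, rfl⟩
    rw [hsplit, ← hB] at hrel
    have hBle : ∀ m : ℤ, (∀ k : ℕ, 1 ≤ k → k ≤ p - 1 → p * a + k * b ≤ m) →
        v.adicValuation B ≤ exp m := by
      intro m hm
      rw [hB]
      refine Valuation.map_sum_le _ fun k hk => ?_
      rw [Finset.mem_range] at hk
      rw [map_mul, map_pow, hY, exp_pow']
      refine (mul_le_mul_left (hck (k + 1) (by omega) (by omega)) _).trans ?_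
      rw [← exp_add, exp_le_exp]
      exact hm (k + 1) (by omega) (by omega)
    -- `b > 0`
    have hb0 : 0 < b := by
      by_contra hcon
      rw [not_lt] at hcon
      have h1 : c 0 = -(B + c p * y ^ p + y ^ (p + 1)) := by linear_combination hrel
      have h2 : v.adicValuation (c 0) ≤ exp (p * a) := by
        rw [h1, Valuation.map_neg]
        refine (Valuation.map_add _ _ _).trans (max_le ((Valuation.map_add _ _ _).trans
          (max_le ?_ ?_)) ?_)
        · refine hBle _ fun k hk1 hk2 => ?_
          have : (0 : ℤ) ≤ k := by positivity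
          nlinarith
        · rw [map_mul, map_pow, hY, exp_pow']
          refine (mul_le_mul_left (hck p (by omega) le_rfl) _).trans ?_
          rw [← exp_add, exp_le_exp]
          nlinarith
        · rw [map_pow, hY, exp_pow', exp_le_exp]
          push_cast
          nlinarith
      rw [hc0, exp_le_exp] at h2
      nlinarith
    -- the main relation
    have hmain : y ^ p * (y - x ^ p) = -(c 0 + B + (c p + x ^ p) * y ^ p) := by
      linear_combination hrel
    have hpm1 : ((p - 1 : ℕ) : ℤ) = p - 1 := by
      rw [Nat.cast_sub (by omega), Nat.cast_one]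
    have hB1 : v.adicValuation B ≤ exp (p * a + (p - 1) * b) := by
      refine hBle _ fun k hk1 hk2 => ?_
      have : (k : ℤ) ≤ p - 1 := by
        rw [← hpm1]
        exact_mod_cast hk2
      nlinarith
    have hC1 : v.adicValuation ((c p + x ^ p) * y ^ p) ≤ exp ((p - 1) * a + p * b) := by
      rw [map_mul, map_pow, hY, exp_pow', exp_add]
      exact mul_le_mul_left hcp _
    have hR : ∀ m : ℤ, (p + 1) * a ≤ m → p * a + (p - 1) * b ≤ m → (p - 1) * a + p * b ≤ m →
        v.adicValuation (y ^ p * (y - x ^ p)) ≤ exp m := by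
      intro m h1 h2 h3
      rw [hmain, Valuation.map_neg]
      refine (Valuation.map_add _ _ _).trans (max_le ((Valuation.map_add _ _ _).trans
        (max_le ?_ ?_)) ?_)
      · rw [hc0, exp_le_exp]; exact h1
      · exact hB1.trans (exp_le_exp.mpr h2)
      · exact hC1.trans (exp_le_exp.mpr h3)
    have hxp : v.adicValuation (x ^ p) = exp (p * a) := by rw [map_pow, hX, exp_pow']
    have hyp : v.adicValuation (y ^ p) = exp (p * b) := by rw [map_pow, hY, exp_pow']
    rcases lt_trichotomy b (p * a) with hlt | heq | hgt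
    · -- `b < p a`
      right
      have h1 : v.adicValuation (y - x ^ p) = exp (p * a) := by
        rw [← hxp]
        refine Valuation.map_sub_eq_of_lt_right _ ?_
        rw [hxp, hY, exp_lt_exp]
        exact hlt
      have h2 : p * b ≤ a := by
        by_contra hcon
        rw [not_le] at hcon
        have h3 := hR (p * b + p * a - 1) (by nlinarith) (by nlinarith) (by nlinarith)
        rw [map_mul, hyp, h1, ← exp_add, exp_le_exp] at h3
        omega
      have h3 : ¬ p * b < a := by
        intro hcon
        have h4 : c 0 = -(B + c p * y ^ p + y ^ (p + 1)) := by linear_combination hrel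
        have h5 : v.adicValuation (c 0) ≤ exp ((p + 1) * a - 1) := by
          rw [h4, Valuation.map_neg]
          refine (Valuation.map_add _ _ _).trans (max_le ((Valuation.map_add _ _ _).trans
            (max_le ?_ ?_)) ?_)
          · refine hB1.trans ?_
            rw [exp_le_exp]
            nlinarith
          · rw [map_mul, hyp]
            refine (mul_le_mul_left (hck p (by omega) le_rfl) _).trans ?_
            rw [← exp_add, exp_le_exp]
            nlinarith
          · rw [map_pow, hY, exp_pow', exp_le_exp]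
            push_cast
            nlinarith
        rw [hc0, exp_le_exp] at h5
        omega
      rw [hX, hY, exp_pow']
      congr 1
      omega
    · left
      refine ⟨by rw [hY, hX, exp_pow', heq], ?_⟩
      have h1 := hR (p * b + (p - 1) * a) (by rw [heq]; nlinarith) (by rw [heq]; nlinarith)
        (by linarith)
      rw [map_mul, hyp, exp_add] at h1
      have h2 : v.adicValuation (y - x ^ p) ≤ exp ((p - 1) * a) :=
        le_of_mul_le_mul_left h1 (by simp)
      rw [Valuation.map_sub_swap, hX, exp_pow']
      refine (mul_le_mul_left h2 _).trans ?_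
      rw [← exp_add, exp_le_exp]
      linarith
    · exfalso
      have h1 : v.adicValuation (y - x ^ p) = exp b := by
        rw [← hY]
        refine Valuation.map_sub_eq_of_lt_left _ ?_
        rw [hxp, hY, exp_lt_exp]
        exact hgt
      have h3 := hR (p * b + b - 1) (by nlinarith) (by nlinarith) (by nlinarith)
      rw [map_mul, hyp, h1, ← exp_add, exp_le_exp] at h3
      omega

end Main

end Fermat.Agent.DR.Mod2
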