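import Fermat.Agent.DR.Mod2.ModPolyBound
import Fermat.Agent.JRED.ModularFF

set_option autoImplicit false

/-!
# The modular equation in `F_{Mq}` and the pole bounds of `j`, `j(q^q)`
-/

noncomputable section

open WithZero AlgebraicCurve Fermat.Agent.RR Fermat.Agent.JRED Polynomial Fermat.Agent.S28
  ModularCurve

namespace Fermat.Agent.DR.Mod2

section Modular

variable (M q : ℕ) [NeZero M] [hq : Fact q.Prime]

theorem coe_alpha_jBar :
    ((heckeAlphaBar (AlgebraicClosure ℚ) M q (jBar M) :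
      laurentBaseChange (AlgebraicClosure ℚ) (modularFunctionFieldFull (M * q))) :
      LaurentSeries (AlgebraicClosure ℚ)) = jqModC (AlgebraicClosure ℚ) := by
  rw [coe_heckeAlphaBar]
  exact coe_jBar M

theorem coe_beta_jBar :
    ((heckeBetaBar (AlgebraicClosure ℚ) M q (jBar M) :
      laurentBaseChange (AlgebraicClosure ℚ) (modularFunctionFieldFull (M * q))) :
      LaurentSeries (AlgebraicClosure ℚ)) =
      qExpand (AlgebraicClosure ℚ) q (jqModC (AlgebraicClosure ℚ)) := by
  rw [coe_heckeBetaBar]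
  exact congrArg _ (coe_jBar M)

/-- The modular equation `Φ_q(j, j(q^q)) = 0` in `F_{Mq}`. -/
theorem modular_equation {Φ : ℤ[X][X]} (hΦ : ModPolySpec q Φ) :
    (PhiR Φ (heckeAlphaBar (AlgebraicClosure ℚ) M q (jBar M))).eval
      (heckeBetaBar (AlgebraicClosure ℚ) M q (jBar M)) = 0 := by
  obtain ⟨ζ, hζ⟩ : ∃ ζ : (AlgebraicClosure ℚ)ˣ, IsPrimitiveRoot ζ q := by
    have h0 : NeZero ((q : ℕ) : AlgebraicClosure ℚ) := ⟨by exact_mod_cast hq.out.ne_zero⟩
    obtain ⟨ζ, hζ⟩ := HasEnoughRootsOfUnity.exists_primitiveRoot (AlgebraicClosure ℚ) q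
    refine ⟨(hζ.isUnit hq.out.ne_zero).unit, ?_⟩
    rw [← IsPrimitiveRoot.coe_units_iff]
    exact hζ
  have h1 := hΦ.root_high hζ (m := 1) one_ne_zero
  rw [jt_one_one, mul_one, jt_one_eq] at h1
  have h2 : algebraMap (laurentBaseChange (AlgebraicClosure ℚ) (modularFunctionFieldFull (M * q)))
      (LaurentSeries (AlgebraicClosure ℚ))
      ((PhiR Φ (heckeAlphaBar (AlgebraicClosure ℚ) M q (jBar M))).eval
      (heckeBetaBar (AlgebraicClosure ℚ) M q (jBar M))) = 0 := by
    rw [← Polynomial.eval₂_hom, ← Polynomial.eval_map, PhiR_map]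
    have h3 : algebraMap (laurentBaseChange (AlgebraicClosure ℚ) (modularFunctionFieldFull (M * q)))
      (LaurentSeries (AlgebraicClosure ℚ)) (heckeAlphaBar (AlgebraicClosure ℚ) M q (jBar M)) =
      jqModC (AlgebraicClosure ℚ) := coe_alpha_jBar M q
    have h4 : algebraMap (laurentBaseChange (AlgebraicClosure ℚ) (modularFunctionFieldFull (M * q)))
      (LaurentSeries (AlgebraicClosure ℚ)) (heckeBetaBar (AlgebraicClosure ℚ) M q (jBar M)) =
      qExpand (AlgebraicClosure ℚ) q (jqModC (AlgebraicClosure ℚ)) := coe_beta_jBar M q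
    rw [h3, h4]
    exact h1
  exact (map_eq_zero_iff _ (algebraMap (laurentBaseChange (AlgebraicClosure ℚ)
    (modularFunctionFieldFull (M * q))) (LaurentSeries (AlgebraicClosure ℚ))).injective).mp h2

/-- **Pole bounds for `j` and `j(q^q)` on `X₀(Mq)`.** -/
theorem poleBound_modular : PoleBound (AlgebraicClosure ℚ) q
    (heckeAlphaBar (AlgebraicClosure ℚ) M q (jBar M))
    (heckeBetaBar (AlgebraicClosure ℚ) M q (jBar M)) := by
  obtain ⟨Φ, hΦ⟩ := exists_modPolySpec q
  exact poleBound_of_shape hq.out.two_le (modPolyShape hΦ) (modular_equation M q hΦ)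

end Modular

end Fermat.Agent.DR.Mod2
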