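import Fermat.Agent.DR.Mod2.PoleCalc

set_option autoImplicit false

/-!
# The inputs H3, H4 (density of the glued ring) from pole bounds of the two degeneracy maps

`G = F_M`, `F = F_{qM}`, `α, β : G → F` the two degeneracy maps, `x = j`; `R` the reduction on `G`,
`R₁, R₂` the two reductions on `F`: `R₁ ∘ α = R`, `R₁ ∘ β = Φ ∘ R`, `R₂ ∘ α = Φ ∘ R`, `R₂ ∘ β = R`.
-/

noncomputable section

open WithZero AlgebraicCurve Fermat.Agent.RR Fermat.Agent.JRED

namespace Fermat.Agent.DR.Mod2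

section Bound

variable {K F : Type*} [Field K] [Field F] [Algebra K F]

/-- Pole bounds for the pair `x = j`, `y = j(q^q)`. -/
structure PoleBound (K : Type*) {F : Type*} [Field K] [Field F] [Algebra K F] (q : ℕ) (x y : F) :
    Prop where
  small : ∀ v : Place K F, v.adicValuation x ≤ 1 → v.adicValuation y ≤ 1
  large : ∀ v : Place K F, 1 < v.adicValuation x →
    (v.adicValuation y = v.adicValuation x ^ q ∧
      v.adicValuation (x ^ q - y) * v.adicValuation x ≤ v.adicValuation x ^ q) ∨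
    v.adicValuation x = v.adicValuation y ^ q

variable {q : ℕ} {x y : F}

theorem PoleBound.mx_le (h : PoleBound K q x y) (hq : 2 ≤ q) (v : Place K F) :
    mx v y ≤ mx v x ^ q := by
  rcases le_or_gt (v.adicValuation x) 1 with h1 | h1
  · rw [mx_eq_one (h.small v h1)]
    exact one_le_pow_of_one_le' (one_le_mx v x) q
  · rcases h.large v h1 with ⟨h2, -⟩ | h2
    · rw [mx_eq h1.le, ← h2, mx_eq]
      rw [h2]
      exact one_le_pow_of_one_le' h1.le q
    · have h3 : 1 ≤ v.adicValuation y := by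
        by_contra hcon
        rw [not_le] at hcon
        have h4 : v.adicValuation y ^ q ≤ 1 := pow_le_one' hcon.le q
        rw [← h2] at h4
        exact absurd h1 (not_lt.mpr h4)
      rw [mx_eq h1.le, mx_eq h3]
      calc v.adicValuation y ≤ v.adicValuation y ^ (q * q) :=
            le_self_pow₀ h3 (by positivity)
        _ = v.adicValuation x ^ q := by rw [h2, pow_mul]

theorem PoleBound.mx_mul_le (h : PoleBound K q x y) (hq : 2 ≤ q) (v : Place K F) {n s : ℕ}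
    (hs : n * (q * q) = n + s) :
    mx v y ^ (n * q) * v.adicValuation (x ^ q - y) ^ s ≤ mx v x ^ (n + q * s) := by
  rcases le_or_gt (v.adicValuation x) 1 with h1 | h1
  · have h2 := h.small v h1
    rw [mx_eq_one h2, one_pow, one_mul]
    have h3 : v.adicValuation (x ^ q - y) ≤ 1 := by
      refine (Valuation.map_sub _ _ _).trans (max_le ?_ h2)
      rw [map_pow]
      exact pow_le_one' h1 q
    exact (pow_le_one' h3 s).trans (one_le_pow_of_one_le' (one_le_mx v x) _)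
  · have hX0 : 0 < v.adicValuation x := lt_trans zero_lt_one h1
    rcases h.large v h1 with ⟨h2, h3⟩ | h2
    · have h4 : mx v y = v.adicValuation x ^ q := by
        rw [mx_eq, h2]
        rw [h2]
        exact one_le_pow_of_one_le' h1.le q
      rw [h4, mx_eq h1.le]
      refine le_of_mul_le_mul_right (a := v.adicValuation x ^ s) ?_ (pow_pos hX0 s)
      calc (v.adicValuation x ^ q) ^ (n * q) * v.adicValuation (x ^ q - y) ^ s *
            v.adicValuation x ^ s
          = v.adicValuation x ^ (n * (q * q)) *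
              (v.adicValuation (x ^ q - y) * v.adicValuation x) ^ s := by
            rw [mul_pow, mul_assoc, ← pow_mul]
            congr 2
            ring
        _ ≤ v.adicValuation x ^ (n * (q * q)) * (v.adicValuation x ^ q) ^ s :=
            mul_le_mul_right (pow_le_pow_left' h3 s) _
        _ = v.adicValuation x ^ (n + q * s) * v.adicValuation x ^ s := by
            rw [hs, ← pow_mul, ← pow_add, ← pow_add]
            congr 1
            ring
    · have h3 : 1 ≤ v.adicValuation y := by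
        by_contra hcon
        rw [not_le] at hcon
        have h4 : v.adicValuation y ^ q ≤ 1 := pow_le_one' hcon.le q
        rw [← h2] at h4
        exact absurd h1 (not_lt.mpr h4)
      have h5 : v.adicValuation y ≤ v.adicValuation x ^ q := by
        calc v.adicValuation y ≤ v.adicValuation y ^ (q * q) :=
              le_self_pow₀ h3 (by positivity)
          _ = v.adicValuation x ^ q := by rw [h2, pow_mul]
      have h6 : v.adicValuation (x ^ q - y) ≤ v.adicValuation x ^ q := by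
        refine (Valuation.map_sub _ _ _).trans (max_le ?_ h5)
        rw [map_pow]
      rw [mx_eq h3, mx_eq h1.le, mul_comm n q, pow_mul, ← h2, pow_add, pow_mul]
      exact mul_le_mul_right (pow_le_pow_left' h6 s) _

end Bound

section Main

variable {K F G k Gb : Type*} [Field K] [Field F] [Algebra K F] [Field G] [Algebra K G] [Field k]
  [Field Gb] [Algebra k Gb] [HasPrincipalDivisors K F] [HasPrincipalDivisors K G]
  [HasPrincipalDivisors k Gb] {A : ValuationSubring K} {π : A →+* k}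

variable (K F G k Gb A π) in
/-- The data of two degeneracy maps with compatible reductions. -/
structure DegPair where
  R : RedDatum K G k Gb A π
  R₁ : RedDatum K F k Gb A π
  R₂ : RedDatum K F k Gb A π
  α : G →ₐ[K] F
  β : G →ₐ[K] F
  Φ : Gb →ₐ[k] Gb
  integral_α : α.toRingHom.IsIntegral
  integral_β : β.toRingHom.IsIntegral
  integral_Φ : Φ.toRingHom.IsIntegral
  red₁_α : ∀ {f : G} {u : Gb}, R.Red f u → R₁.Red (α f) u
  red₁_β : ∀ {f : G} {u : Gb}, R.Red f u → R₁.Red (β f) (Φ u)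
  red₂_α : ∀ {f : G} {u : Gb}, R.Red f u → R₂.Red (α f) (Φ u)
  red₂_β : ∀ {f : G} {u : Gb}, R.Red f u → R₂.Red (β f) u
  q : ℕ
  two_le : 2 ≤ q
  x : G
  xb : Gb
  red_x : R.Red x xb
  Φ_xb : Φ xb = xb ^ q
  bound : PoleBound K q (α x) (β x)
  /-- lifting of functions with poles at the poles of `j` -/
  lift : ∃ n₁ : ℕ, ∀ n, n₁ ≤ n → ∀ u ∈ riemannRochSpace (n • polesOf (K := k) xb),
    ∃ f ∈ riemannRochSpace (n • polesOf (K := K) x), R.Red f u

variable (D : DegPair K F G k Gb A π)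

theorem DegPair.β_mem {n : ℕ} {f : G} (hf : f ∈ riemannRochSpace (n • polesOf (K := K) D.x)) :
    D.β f ∈ riemannRochSpace ((D.q * n) • polesOf (K := K) (D.α D.x)) := by
  have h1 := rr_along D.β D.integral_β hf
  rw [mem_rr_iff] at h1 ⊢
  intro v
  rw [pow_mul]
  exact (h1 v).trans (pow_le_pow_left' (D.bound.mx_le D.two_le v) n)

theorem DegPair.βx_mem : D.β D.x ∈ riemannRochSpace (D.q • polesOf (K := K) (D.α D.x)) := by
  have := D.β_mem (n := 1) (f := D.x) (by simpa using rr_pow_self (K := K) 1 D.x)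
  rwa [mul_one] at this

/-- **(H4)**, first component. -/
theorem DegPair.surj₁ {n : ℕ} {u : Gb} (hu : u ∈ riemannRochSpace (n • polesOf (K := k) D.xb)) :
    ∃ (m : ℕ) (h : F) (u' : Gb), h ∈ riemannRochSpace (m • polesOf (K := K) (D.α D.x)) ∧
      Red₂ D.R₁ D.R₂ h (u, u') := by
  obtain ⟨n₁, hn₁⟩ := D.lift
  obtain ⟨f, hf, hfu⟩ := hn₁ (max n n₁) (le_max_right _ _) u (rr_mono (le_max_left _ _) hu)
  exact ⟨_, D.α f, D.Φ u, rr_along D.α D.integral_α hf, D.red₁_α hfu, D.red₂_α hfu⟩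

/-- **(H4)**, second component. -/
theorem DegPair.surj₂ {n : ℕ} {u : Gb}
    (hu : u ∈ riemannRochSpace (n • polesOf (K := k) (D.xb ^ D.q))) :
    ∃ (m : ℕ) (h : F) (u' : Gb), h ∈ riemannRochSpace (m • polesOf (K := K) (D.α D.x)) ∧
      Red₂ D.R₁ D.R₂ h (u', u) := by
  have hq0 : D.q ≠ 0 := by have := D.two_le; omega
  rw [mem_rr_pow_iff hq0] at hu
  obtain ⟨n₁, hn₁⟩ := D.lift
  obtain ⟨f, hf, hfu⟩ := hn₁ (max _ n₁) (le_max_right _ _) u (rr_mono (le_max_left _ _) hu)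
  exact ⟨_, D.β f, D.Φ u, D.β_mem hf, D.red₁_β hfu, D.red₂_β hfu⟩

theorem pow_sub_pow_mem {x : Gb} {q s : ℕ} (hq : 2 ≤ q) (hs : 1 ≤ s) :
    (x ^ (q * q) - x) ^ s - (x ^ (q * q)) ^ s ∈
      riemannRochSpace ((q * (q * s - 1)) • polesOf (K := k) x) := by
  rw [mem_rr_iff]
  intro v
  have h1 : (x ^ (q * q) - x) ^ s - (x ^ (q * q)) ^ s =
      -(x * ∑ i ∈ Finset.range s, (x ^ (q * q) - x) ^ i * (x ^ (q * q)) ^ (s - 1 - i)) := by
    have h2 := (Commute.all (x ^ (q * q) - x) (x ^ (q * q))).mul_geom_sum₂ s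
    rw [← h2]
    ring
  have hX := one_le_mx v x
  have ha : v.adicValuation (x ^ (q * q)) ≤ mx v x ^ (q * q) := by
    rw [map_pow]
    exact pow_le_pow_left' (le_mx v x) _
  have hab : v.adicValuation (x ^ (q * q) - x) ≤ mx v x ^ (q * q) := by
    refine (Valuation.map_sub _ _ _).trans (max_le ha ?_)
    calc v.adicValuation x ≤ mx v x := le_mx v x
      _ ≤ mx v x ^ (q * q) := le_self_pow₀ hX (by positivity)
  rw [h1, Valuation.map_neg, map_mul]
  have h3 : v.adicValuation (∑ i ∈ Finset.range s, (x ^ (q * q) - x) ^ i *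
      (x ^ (q * q)) ^ (s - 1 - i)) ≤ mx v x ^ (q * q * (s - 1)) := by
    refine Valuation.map_sum_le _ fun i hi => ?_
    rw [Finset.mem_range] at hi
    rw [map_mul, map_pow, map_pow]
    calc v.adicValuation (x ^ (q * q) - x) ^ i * v.adicValuation (x ^ (q * q)) ^ (s - 1 - i)
        ≤ (mx v x ^ (q * q)) ^ i * (mx v x ^ (q * q)) ^ (s - 1 - i) :=
          mul_le_mul' (pow_le_pow_left' hab i) (pow_le_pow_left' ha _)
      _ = mx v x ^ (q * q * (s - 1)) := by
          rw [← pow_add, ← pow_mul]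
          congr 2
          omega
  calc v.adicValuation x * _ ≤ mx v x * mx v x ^ (q * q * (s - 1)) :=
        mul_le_mul' (le_mx v x) h3
    _ = mx v x ^ (q * q * (s - 1) + 1) := by rw [pow_succ, mul_comm]
    _ ≤ mx v x ^ (q * (q * s - 1)) := by
        refine pow_le_pow_right' hX ?_
        obtain ⟨t, rfl⟩ : ∃ t, s = t + 1 := ⟨s - 1, by omega⟩
        obtain ⟨r, rfl⟩ : ∃ r, q = r + 2 := ⟨q - 2, by omega⟩
        rw [Nat.add_sub_cancel]
        have h5 : (r + 2) * (t + 1) - 1 = (r + 2) * t + (r + 1) := by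
          rw [Nat.mul_add, mul_one]
          omega
        rw [h5]
        nlinarith

/-- **(H3)**. -/
theorem DegPair.dense : ∃ n₀ : ℕ, ∀ u : Gb × Gb,
    u.1 ∈ riemannRochSpace (n₀ • polesOf (K := k) D.xb) →
    u.2 ∈ riemannRochSpace (n₀ • polesOf (K := k) (D.xb ^ D.q)) →
    ∃ N : ℕ, 1 ≤ N ∧ ∃ (h : F) (v : Gb × Gb),
      h ∈ riemannRochSpace ((n₀ + N) • polesOf (K := K) (D.α D.x)) ∧ Red₂ D.R₁ D.R₂ h v ∧
      v.1 - D.xb ^ N * u.1 ∈ riemannRochSpace ((n₀ + N - 1) • polesOf (K := k) D.xb) ∧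
      v.2 - (D.xb ^ D.q) ^ N * u.2 ∈
        riemannRochSpace ((n₀ + N - 1) • polesOf (K := k) (D.xb ^ D.q)) := by
  obtain ⟨n₁, hn₁⟩ := D.lift
  have hq := D.two_le
  have hq0 : D.q ≠ 0 := by omega
  set q := D.q with hqdef
  obtain ⟨n, hn, hn'⟩ : ∃ n, n₁ ≤ n ∧ 1 ≤ n := ⟨max n₁ 1, le_max_left _ _, le_max_right _ _⟩
  refine ⟨n, fun u hu₁ hu₂ => ?_⟩
  obtain ⟨s, hs⟩ : ∃ s, n * (q * q) = n + s := by
    have : n ≤ n * (q * q) := Nat.le_mul_of_pos_right n (by positivity)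
    exact ⟨_, (Nat.add_sub_cancel' this).symm⟩
  have hs1 : 1 ≤ s := by
    have h4 : n * 4 ≤ n * (q * q) := Nat.mul_le_mul_left n (by nlinarith)
    omega
  obtain ⟨f₁, hf₁, hfu₁⟩ := hn₁ n hn u.1 hu₁
  rw [mem_rr_pow_iff hq0] at hu₂
  obtain ⟨f₂, hf₂, hfu₂⟩ := hn₁ (q * n) (by nlinarith) u.2 hu₂
  obtain ⟨N, hN⟩ : ∃ N, N = q * s := ⟨_, rfl⟩
  obtain ⟨M, hM⟩ : ∃ M, N = M + q := ⟨q * s - q, by
    rw [hN]
    have : q * 1 ≤ q * s := Nat.mul_le_mul_left q hs1
    omega⟩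
  have hN1 : 1 ≤ N := by omega
  -- the first function
  have hA : D.α f₁ * (D.α D.x ^ M * D.β D.x) ∈
      riemannRochSpace ((n + N) • polesOf (K := K) (D.α D.x)) := by
    rw [hM]
    exact rr_mul (rr_along D.α D.integral_α hf₁) (rr_mul (rr_pow_self M _) D.βx_mem)
  have hA₁ : D.R₁.Red (D.α f₁ * (D.α D.x ^ M * D.β D.x)) (u.1 * (D.xb ^ M * D.xb ^ q)) := by
    refine D.R₁.mul (D.red₁_α hfu₁) (D.R₁.mul (RedDatum.pow (D.red₁_α D.red_x) M) ?_)
    rw [hqdef, ← D.Φ_xb]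
    exact D.red₁_β D.red_x
  have hA₂ : D.R₂.Red (D.α f₁ * (D.α D.x ^ M * D.β D.x))
      (D.Φ u.1 * ((D.xb ^ q) ^ M * D.xb)) := by
    refine D.R₂.mul (D.red₂_α hfu₁) (D.R₂.mul (RedDatum.pow ?_ M) (D.red₂_β D.red_x))
    rw [hqdef, ← D.Φ_xb]
    exact D.red₂_α D.red_x
  -- the second function
  have hB : D.β f₂ * (D.α D.x ^ q - D.β D.x) ^ s ∈
      riemannRochSpace ((n + N) • polesOf (K := K) (D.α D.x)) := by
    have h1 := rr_along D.β D.integral_β hf₂
    rw [mem_rr_iff] at h1 ⊢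
    intro v
    rw [map_mul, map_pow, hN]
    refine le_trans (mul_le_mul_left (h1 v) _) ?_
    rw [mul_comm q n]
    exact D.bound.mx_mul_le hq v hs
  have hs0 : s ≠ 0 := by omega
  have hB₁ : D.R₁.Red (D.β f₂ * (D.α D.x ^ q - D.β D.x) ^ s) 0 := by
    have h1 : D.R₁.Red (D.α D.x ^ q - D.β D.x) (D.xb ^ q - D.xb ^ q) := by
      refine RedDatum.sub (RedDatum.pow (D.red₁_α D.red_x) q) ?_
      rw [hqdef, ← D.Φ_xb]
      exact D.red₁_β D.red_x
    have h2 := D.R₁.mul (D.red₁_β hfu₂) (RedDatum.pow h1 s)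
    rwa [sub_self, zero_pow hs0, mul_zero] at h2
  have hB₂ : D.R₂.Red (D.β f₂ * (D.α D.x ^ q - D.β D.x) ^ s)
      (u.2 * (D.xb ^ (q * q) - D.xb) ^ s) := by
    refine D.R₂.mul (D.red₂_β hfu₂) (RedDatum.pow (RedDatum.sub ?_ (D.red₂_β D.red_x)) s)
    rw [pow_mul]
    refine RedDatum.pow ?_ q
    rw [hqdef, ← D.Φ_xb]
    exact D.red₂_α D.red_x
  refine ⟨N, hN1, _, (u.1 * (D.xb ^ M * D.xb ^ q) + 0,
    D.Φ u.1 * ((D.xb ^ q) ^ M * D.xb) + u.2 * (D.xb ^ (q * q) - D.xb) ^ s),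
    add_mem hA hB, ⟨D.R₁.add hA₁ hB₁, D.R₂.add hA₂ hB₂⟩, ?_, ?_⟩
  · have h1 : u.1 * (D.xb ^ M * D.xb ^ q) + 0 - D.xb ^ N * u.1 = 0 := by
      rw [hM, pow_add]
      ring
    rw [h1]
    exact Submodule.zero_mem _
  · have h1 : D.Φ u.1 * ((D.xb ^ q) ^ M * D.xb) + u.2 * (D.xb ^ (q * q) - D.xb) ^ s -
        (D.xb ^ q) ^ N * u.2 = D.Φ u.1 * ((D.xb ^ q) ^ M * D.xb) +
        u.2 * ((D.xb ^ (q * q) - D.xb) ^ s - (D.xb ^ (q * q)) ^ s) := by
      rw [hN, pow_mul D.xb q q, pow_mul (D.xb ^ q) q s]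
      ring
    show D.Φ u.1 * ((D.xb ^ q) ^ M * D.xb) + u.2 * (D.xb ^ (q * q) - D.xb) ^ s -
        (D.xb ^ q) ^ N * u.2 ∈ _
    rw [h1, mem_rr_pow_iff hq0]
    refine add_mem ?_ ?_
    · have h2 := rr_along D.Φ D.integral_Φ hu₁
      rw [D.Φ_xb, ← hqdef, mem_rr_pow_iff hq0] at h2
      have h3 : (D.xb ^ q) ^ M * D.xb ∈
          riemannRochSpace ((q * M + 1) • polesOf (K := k) D.xb) := by
        rw [← pow_mul, ← pow_succ]
        exact rr_pow_self _ _
      refine rr_mono ?_ (rr_mul h2 h3)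
      obtain ⟨r, hr⟩ : ∃ r, q = r + 2 := ⟨q - 2, by omega⟩
      have h4 : n + N - 1 = n + (M + (r + 1)) := by omega
      rw [h4, hr]
      nlinarith
    · refine rr_mono ?_ (rr_mul hu₂ (pow_sub_pow_mem (k := k) (x := D.xb) hq hs1))
      rw [← Nat.mul_add]
      apply Nat.mul_le_mul_left
      omega

end Main

end Fermat.Agent.DR.Mod2
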