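import Fermat.Agent.DR.Nodes.ToNodal
import Fermat.Agent.DR.Mod2.PoleBound

set_option autoImplicit false

/-!
# The inputs `surj₁ surj₂ inf₁ inf₂` of `exists_nodalDatum` from a `DegPair`
-/

noncomputable section

open AlgebraicCurve Fermat.Agent.RR Fermat.Agent.JRED IntermediateField
open Fermat.Agent.DR.Nodes

namespace Fermat.Agent.DR.Mod2

section Aux

variable {K F : Type*} [Field K] [Field F] [Algebra K F]

theorem ord_sub_pow {x : F} {v : Place K F} (hx : v.ord x < 0) {n : ℕ} (hn : 1 < n) :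
    v.ord (x - x ^ n) = n * v.ord x := by
  have hx0 : x ≠ 0 := by
    rintro rfl
    rw [v.ord_zero] at hx
    exact lt_irrefl _ hx
  rw [← ord_neg, neg_sub, sub_eq_add_neg, ← ord_pow]
  apply ord_add_eq_of_lt v (pow_ne_zero n hx0)
  right
  rw [ord_neg, ord_pow]
  have : (1 : ℤ) < n := by exact_mod_cast hn
  nlinarith

end Aux

variable {K F G k Gb : Type*} [Field K] [Field F] [Algebra K F] [Field G] [Algebra K G] [Field k]
  [Field Gb] [Algebra k Gb] [FunctionField K F] [FunctionField K G]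
  [FunctionField k Gb] {A : ValuationSubring K} {π : A →+* k}
  (D : DegPair K F G k Gb A π) (hπ : Function.Surjective π)

theorem DegPair.nodal_surj₁ : ∀ a ∈ regAlg k D.xb,
    ∃ (n : ℕ) (b : Gb), (a, b) ∈ redV hπ D.R₁ D.R₂ (D.α D.x) n := by
  intro a ha
  obtain ⟨n, hn⟩ := exists_mem_of_mem_regAlg ha
  obtain ⟨m, h, u', hh, hr⟩ := D.surj₁ hn
  exact ⟨m, u', mem_redV.mpr ⟨h, hh, hr⟩⟩

theorem DegPair.nodal_surj₂ : ∀ b ∈ regAlg k (D.xb ^ D.q),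
    ∃ (n : ℕ) (a : Gb), (a, b) ∈ redV hπ D.R₁ D.R₂ (D.α D.x) n := by
  intro b hb
  obtain ⟨n, hn⟩ := exists_mem_of_mem_regAlg hb
  obtain ⟨m, h, u', hh, hr⟩ := D.surj₂ hn
  exact ⟨m, u', mem_redV.mpr ⟨h, hh, hr⟩⟩

theorem DegPair.nodal_inf₁ : ∃ (N : ℕ) (ϖ : Gb), 0 < N ∧
    (ϖ, (0 : Gb)) ∈ redV hπ D.R₁ D.R₂ (D.α D.x) N ∧
      (∀ P : Place k Gb, P.ord D.xb < 0 → P.ord ϖ = N * P.ord D.xb) ∧
      ∃ m₀ : ℕ, ∀ m ≥ m₀, ∃ a : ℕ, ∀ w ∈ riemannRochSpace (m • polesOf (K := k) D.xb),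
        (w * ϖ ^ a, (0 : Gb)) ∈ redV hπ D.R₁ D.R₂ (D.α D.x) (m + a * N) := by
  have hq := D.two_le
  have hq0 : 0 < D.q := by omega
  have hq2 : 1 < D.q ^ 2 := Nat.one_lt_pow (by norm_num) (by omega)
  have hred₁ : D.R₁.Red (D.α D.x - D.β D.x ^ D.q) (D.xb - D.xb ^ D.q ^ 2) := by
    have h1 := RedDatum.pow (D.red₁_β D.red_x) D.q
    rw [D.Φ_xb, ← pow_mul, ← sq] at h1
    exact RedDatum.sub (D.red₁_α D.red_x) h1
  have hred₂ : D.R₂.Red (D.α D.x - D.β D.x ^ D.q) 0 := by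
    have h1 := RedDatum.sub (D.red₂_α D.red_x) (RedDatum.pow (D.red₂_β D.red_x) D.q)
    rwa [D.Φ_xb, sub_self] at h1
  have hself : D.α D.x ∈ riemannRochSpace (1 • polesOf (K := K) (D.α D.x)) := by
    have h := rr_pow_self (K := K) 1 (D.α D.x)
    rwa [pow_one] at h
  have hmem : D.α D.x - D.β D.x ^ D.q ∈
      riemannRochSpace (D.q ^ 2 • polesOf (K := K) (D.α D.x)) := by
    refine sub_mem (rr_mono hq2.le hself) ?_
    have h1 := D.βx_mem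
    rw [mem_rr_iff] at h1 ⊢
    intro v
    rw [map_pow, sq, pow_mul]
    exact pow_le_pow_left' (h1 v) _
  obtain ⟨m₀, hm₀⟩ := D.lift
  refine ⟨D.q ^ 2, D.xb - D.xb ^ D.q ^ 2, by positivity, mem_redV.mpr ⟨_, hmem, hred₁, hred₂⟩,
    fun P hP => ord_sub_pow hP hq2, m₀, fun m hm => ⟨1, fun w hw => ?_⟩⟩
  obtain ⟨h, hh, hr⟩ := hm₀ m hm w hw
  rw [pow_one, one_mul]
  refine mem_redV.mpr ⟨D.α h * (D.α D.x - D.β D.x ^ D.q),
    rr_mul (rr_along D.α D.integral_α hh) hmem, D.R₁.mul (D.red₁_α hr) hred₁, ?_⟩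
  have h2 := D.R₂.mul (D.red₂_α hr) hred₂
  rwa [mul_zero] at h2

theorem DegPair.nodal_inf₂ : ∃ (N : ℕ) (ϖ : Gb), 0 < N ∧
    ((0 : Gb), ϖ) ∈ redV hπ D.R₁ D.R₂ (D.α D.x) N ∧
      (∀ P : Place k Gb, P.ord (D.xb ^ D.q) < 0 → P.ord ϖ = N * P.ord (D.xb ^ D.q)) ∧
      ∃ m₀ : ℕ, ∀ m ≥ m₀, ∃ a : ℕ, ∀ w ∈ riemannRochSpace (m • polesOf (K := k) (D.xb ^ D.q)),
        ((0 : Gb), w * ϖ ^ a) ∈ redV hπ D.R₁ D.R₂ (D.α D.x) (m + a * N) := by
  have hq := D.two_le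
  have hq0 : 0 < D.q := by omega
  have hq2 : 1 < D.q ^ 2 := Nat.one_lt_pow (by norm_num) (by omega)
  have hred₁ : D.R₁.Red (D.α D.x ^ D.q - D.β D.x) 0 := by
    have h1 := RedDatum.sub (RedDatum.pow (D.red₁_α D.red_x) D.q) (D.red₁_β D.red_x)
    rwa [D.Φ_xb, sub_self] at h1
  have hred₂ : D.R₂.Red (D.α D.x ^ D.q - D.β D.x) (D.xb ^ D.q ^ 2 - D.xb) := by
    have h1 := RedDatum.pow (D.red₂_α D.red_x) D.q
    rw [D.Φ_xb, ← pow_mul, ← sq] at h1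
    exact RedDatum.sub h1 (D.red₂_β D.red_x)
  have hmem : D.α D.x ^ D.q - D.β D.x ∈ riemannRochSpace (D.q • polesOf (K := K) (D.α D.x)) :=
    sub_mem (rr_pow_self _ _) D.βx_mem
  obtain ⟨m₀, hm₀⟩ := D.lift
  refine ⟨D.q, D.xb ^ D.q ^ 2 - D.xb, hq0, mem_redV.mpr ⟨_, hmem, hred₁, hred₂⟩, ?_, max m₀ 1,
    fun m hm => ?_⟩
  · intro P hP
    rw [ord_pow] at hP
    have hP' : P.ord D.xb < 0 := by
      by_contra h
      push Not at h
      have : (0 : ℤ) ≤ D.q := Int.natCast_nonneg _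
      nlinarith
    rw [← ord_neg, neg_sub, ord_sub_pow hP' hq2, ord_pow]
    push_cast
    ring
  · have hm0 : m₀ ≤ m := le_trans (le_max_left _ _) hm
    have hm1 : 1 ≤ m := le_trans (le_max_right _ _) hm
    obtain ⟨s, hs⟩ : ∃ s, m * (D.q * D.q) = m + s := by
      have : m ≤ m * (D.q * D.q) := Nat.le_mul_of_pos_right m (by positivity)
      exact ⟨_, (Nat.add_sub_cancel' this).symm⟩
    have hs1 : s ≠ 0 := by
      have h4 : m * 4 ≤ m * (D.q * D.q) := Nat.mul_le_mul_left m (by nlinarith)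
      omega
    refine ⟨s, fun w hw => ?_⟩
    rw [mem_rr_pow_iff hq0.ne'] at hw
    obtain ⟨h, hh, hr⟩ := hm₀ (D.q * m) (hm0.trans (Nat.le_mul_of_pos_left m hq0)) w hw
    refine mem_redV.mpr ⟨D.β h * (D.α D.x ^ D.q - D.β D.x) ^ s, ?_, ?_,
      D.R₂.mul (D.red₂_β hr) (RedDatum.pow hred₂ _)⟩
    · have h1 := rr_along D.β D.integral_β hh
      rw [mem_rr_iff] at h1 ⊢
      intro v
      rw [map_mul, map_pow]
      refine (mul_le_mul' (h1 v) le_rfl).trans ?_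
      have h2 := D.bound.mx_mul_le hq v hs
      rwa [mul_comm m D.q, mul_comm D.q s] at h2
    · have h3 := D.R₁.mul (D.red₁_β hr) (RedDatum.pow hred₁ s)
      rwa [zero_pow hs1, mul_zero] at h3

/-- Node functions: `(0, t^(q²) - t)` for `t` regular with `Φ t = t^q`. -/
theorem DegPair.nodal_T {t : Gb} (ht : t ∈ regAlg k D.xb) (hΦ : D.Φ t = t ^ D.q) :
    ∃ n, ((0 : Gb), t ^ D.q ^ 2 - t) ∈ redV hπ D.R₁ D.R₂ (D.α D.x) n := by
  obtain ⟨n₁, hn₁⟩ := D.lift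
  obtain ⟨n, hn⟩ := exists_mem_of_mem_regAlg ht
  obtain ⟨f, hf, hr⟩ := hn₁ (max n₁ n) (le_max_left _ _) t (rr_mono (le_max_right _ _) hn)
  refine ⟨D.q * max n₁ n, mem_redV.mpr ⟨D.α f ^ D.q - D.β f, ?_, ?_, ?_⟩⟩
  · refine sub_mem ?_ (D.β_mem hf)
    have h1 := rr_along D.α D.integral_α hf
    rw [mem_rr_iff] at h1 ⊢
    intro v
    rw [map_pow, mul_comm, pow_mul]
    exact pow_le_pow_left' (h1 v) _
  · have h1 := RedDatum.sub (RedDatum.pow (D.red₁_α hr) D.q) (D.red₁_β hr)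
    rwa [hΦ, sub_self] at h1
  · have h1 := RedDatum.sub (RedDatum.pow (D.red₂_α hr) D.q) (D.red₂_β hr)
    rwa [hΦ, ← pow_mul, ← sq] at h1

end Fermat.Agent.DR.Mod2
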