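import Fermat.Agent.DR.Nodal.Datum
import Fermat.Prelude.Def_AlgebraicCurve_Correspondence

set_option autoImplicit false

/-!
# Pole calculus for `L(n (x)_∞)` and the two degeneracy maps (pieces P1-P4 of DR)
-/

noncomputable section

open WithZero AlgebraicCurve Fermat.Agent.RR Fermat.Agent.JRED

namespace Fermat.Agent.DR.Mod2

section Basic

variable {K F : Type*} [Field K] [Field F] [Algebra K F]

/-- `max 1 v(x)` -/
def mx (v : Place K F) (x : F) : ℤᵐ⁰ := max 1 (v.adicValuation x)

theorem one_le_mx (v : Place K F) (x : F) : 1 ≤ mx v x := le_max_left _ _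

theorem le_mx (v : Place K F) (x : F) : v.adicValuation x ≤ mx v x := le_max_right _ _

theorem mx_eq_one {v : Place K F} {x : F} (h : v.adicValuation x ≤ 1) : mx v x = 1 :=
  max_eq_left h

theorem mx_eq {v : Place K F} {x : F} (h : 1 ≤ v.adicValuation x) : mx v x = v.adicValuation x :=
  max_eq_right h

theorem exp_max_ord (v : Place K F) (x : F) : exp (max (-v.ord x) 0) = mx v x := by
  rcases eq_or_ne x 0 with rfl | hx
  · rw [v.ord_zero, neg_zero, max_self, exp_zero, mx, map_zero, max_eq_left zero_le_one]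
  · have h1 : exp (max (-v.ord x) 0) = max (exp (-v.ord x)) (exp (0 : ℤ)) := by
      rcases le_total (-v.ord x) 0 with h | h
      · rw [max_eq_right h, max_eq_right (exp_le_exp.mpr h)]
      · rw [max_eq_left h, max_eq_left (exp_le_exp.mpr h)]
    rw [h1, ← v.adicValuation_eq_exp_neg_ord hx, exp_zero, mx, max_comm]

variable [HasPrincipalDivisors K F]

theorem mem_rr_iff {n : ℕ} {x f : F} : f ∈ riemannRochSpace (n • polesOf (K := K) x) ↔
    ∀ v : Place K F, v.adicValuation f ≤ mx v x ^ n := by
  have h : ∀ v : Place K F, exp ((n • polesOf (K := K) x) v) = mx v x ^ n := by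
    intro v
    rw [Finsupp.smul_apply, exp_nsmul, polesOf_apply, exp_max_ord]
  constructor
  · intro hf v
    rw [← h]
    exact hf v
  · intro hf v
    rw [h]
    exact hf v

theorem rr_mul {n m : ℕ} {x f g : F} (hf : f ∈ riemannRochSpace (n • polesOf (K := K) x))
    (hg : g ∈ riemannRochSpace (m • polesOf (K := K) x)) :
    f * g ∈ riemannRochSpace ((n + m) • polesOf (K := K) x) := by
  rw [mem_rr_iff] at *
  intro v
  rw [map_mul, pow_add]
  exact mul_le_mul' (hf v) (hg v)

theorem rr_mono {n m : ℕ} (hnm : n ≤ m) {x f : F}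
    (hf : f ∈ riemannRochSpace (n • polesOf (K := K) x)) :
    f ∈ riemannRochSpace (m • polesOf (K := K) x) := by
  rw [mem_rr_iff] at *
  intro v
  exact (hf v).trans (pow_le_pow_right' (one_le_mx v x) hnm)

theorem rr_pow_self (n : ℕ) (x : F) : x ^ n ∈ riemannRochSpace (n • polesOf (K := K) x) := by
  rw [mem_rr_iff]
  intro v
  rw [map_pow]
  exact pow_le_pow_left' (le_mx v x) n

/-- the poles of `x ^ q` -/
theorem mx_pow (v : Place K F) (x : F) {q : ℕ} (hq : q ≠ 0) : mx v (x ^ q) = mx v x ^ q := by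
  rcases le_total (v.adicValuation x) 1 with h | h
  · rw [mx_eq_one h, one_pow, mx_eq_one]
    rw [map_pow]
    exact pow_le_one' h q
  · rw [mx_eq h, mx_eq, map_pow]
    rw [map_pow]
    exact one_le_pow_of_one_le' h q

theorem mem_rr_pow_iff {n q : ℕ} (hq : q ≠ 0) {x f : F} :
    f ∈ riemannRochSpace (n • polesOf (K := K) (x ^ q)) ↔
      f ∈ riemannRochSpace ((q * n) • polesOf (K := K) x) := by
  rw [mem_rr_iff, mem_rr_iff]
  simp only [mx_pow _ _ hq, pow_mul]

end Basic

section Along

variable {K F G : Type*} [Field K] [Field F] [Algebra K F] [Field G] [Algebra K G]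
  [HasPrincipalDivisors K F] [HasPrincipalDivisors K G]

theorem rr_along (φ : G →ₐ[K] F) (hφ : φ.toRingHom.IsIntegral) {n : ℕ} {x f : G}
    (hf : f ∈ riemannRochSpace (n • polesOf (K := K) x)) :
    φ f ∈ riemannRochSpace (n • polesOf (K := K) (φ x)) := by
  rcases eq_or_ne f 0 with rfl | hf0
  · rw [map_zero]
    exact Submodule.zero_mem _
  rw [mem_riemannRochSpace_iff] at hf ⊢
  intro w
  right
  have h1 := (hf (w.restrictAlong φ hφ)).resolve_left hf0
  rw [Finsupp.smul_apply, polesOf_apply] at h1 ⊢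
  rw [w.ord_restrictAlong φ hφ, w.ord_restrictAlong φ hφ]
  set e : ℤ := (Place.ramificationIndexAlong φ w : ℤ) with he
  have he0 : 0 ≤ e := by positivity
  have h2 : max (-(e * (w.restrictAlong φ hφ).ord x)) 0 =
      e * max (-(w.restrictAlong φ hφ).ord x) 0 := by
    rw [mul_max_of_nonneg _ _ he0, mul_zero, mul_neg]
  rw [h2]
  have h3 := mul_le_mul_of_nonneg_left h1 he0
  simp only [nsmul_eq_mul] at h3 ⊢
  linarith

end Along

end Fermat.Agent.DR.Mod2
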